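/-
S18 / wave 4 (helper72): core 2, leaf K2-CH-E (task 227) of the chart package
(statements of `H19/Core2.lean`, reports #1324, #1411):

* `chart_inter`: `C₁ ∩ C₂ = A₀` (an element integral over `A₀[x]` and over `A₀[x⁻¹]` is
  integral over `A₀`, then `DSetup.const₀`);
* `chart_const_of`: `C̄₁ ∩ C̄₂ = k₀` (the same argument in the residue field of `O₀`, then
  `DSetup.const`), conditional on `C ∩ 𝔪 = ϖ C` (`chart_mem_nonunits`, leaf K2-CH-A).
-/
import Fermat.Agent.S18.H19.Core2Defs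
import Fermat.Agent.S18.H30.CechSkel

set_option autoImplicit false

open Polynomial

namespace Fermat.Agent.S18.H72

open Fermat.Agent.S18.H19

variable {A₀ : Type*} [CommRing A₀] {F₀ : Type*} [Field F₀] [Algebra A₀ F₀]

/-- `A₀ ⊆ O₀`. -/
theorem algebraMap_mem_of_dsetup {O₀ : ValuationSubring F₀} {x : F₀} (hS : DSetup A₀ O₀ x)
    (a : A₀) : algebraMap A₀ F₀ a ∈ O₀ := by
  have hnt : Nontrivial A₀ := (algebraMap A₀ F₀).domain_nontrivial
  have h := (hS.mem_iff a 1 one_ne_zero).mpr (one_dvd a)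
  rwa [map_one, div_one] at h

/-- `x` is a unit of `O₀`. -/
theorem self_mem_of_dsetup {O₀ : ValuationSubring F₀} {x : F₀} (hS : DSetup A₀ O₀ x) :
    x ∈ O₀ ∧ x⁻¹ ∈ O₀ := by
  have h := hS.gauss X ⟨1, by rw [coeff_X_one]; exact isUnit_one⟩
  rwa [aeval_X] at h

/-- `A₀[x] ⊆ V` for a valuation subring `V ⊇ A₀` containing `x`. -/
theorem adjoin_le_valuationSubring (V : ValuationSubring F₀)
    (hA : ∀ a : A₀, algebraMap A₀ F₀ a ∈ V) {x : F₀} (hx : x ∈ V) :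
    ∀ z ∈ Algebra.adjoin A₀ ({x} : Set F₀), z ∈ V := by
  intro z hz
  induction hz using Algebra.adjoin_induction with
  | mem z hz =>
    rw [Set.mem_singleton_iff.mp hz]
    exact hx
  | algebraMap a => exact hA a
  | add z w _ _ hz hw => exact V.add_mem _ _ hz hw
  | mul z w _ _ hz hw => exact V.mul_mem _ _ hz hw

/-- The chart of `x` lies in every valuation subring `V ⊇ A₀` containing `x`. -/
theorem chart_subset_valuationSubring (V : ValuationSubring F₀)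
    (hA : ∀ a : A₀, algebraMap A₀ F₀ a ∈ V) {x : F₀} (hx : x ∈ V) :
    ∀ c ∈ chart A₀ x, c ∈ V := by
  intro c hc
  exact H30.k7_mem_valuationSubring_of_isIntegral (R := Algebra.adjoin A₀ ({x} : Set F₀)) V
    (fun r => adjoin_le_valuationSubring V hA hx r.1 r.2) ((mem_chart_iff A₀).mp hc)

/-- CH-A `chart_le` (own copy): the chart lies in `O₀`. -/
theorem chart_le_of_dsetup {O₀ : ValuationSubring F₀} {x : F₀} (hS : DSetup A₀ O₀ x) :
    ∀ c ∈ chart A₀ x, c ∈ O₀ :=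
  chart_subset_valuationSubring O₀ (algebraMap_mem_of_dsetup hS) (self_mem_of_dsetup hS).1

/-- **CH-E `chart_inter`**: `C₁ ∩ C₂ = A₀`. -/
theorem chart_inter (O₀ : ValuationSubring F₀) (x : F₀) (hS : DSetup A₀ O₀ x) :
    ∀ y ∈ chart A₀ x, y ∈ chart A₀ x⁻¹ → ∃ a : A₀, y = algebraMap A₀ F₀ a := by
  intro y hy hy'
  apply hS.const₀
  apply H30.k7_isIntegral_of_forall_valuationSubring
  intro V hV
  rcases V.mem_or_inv_mem x with hx | hx
  · exact chart_subset_valuationSubring V hV hx y hy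
  · exact chart_subset_valuationSubring V hV hx y hy'

/-- Reduction of an integral equation to the residue field of a valuation subring. -/
theorem isIntegralElem_residue {R F : Type*} [CommRing R] [Field F] [Algebra R F]
    (O : ValuationSubring F) (hR : ∀ r : R, algebraMap R F r ∈ O) (c : F) (hc : c ∈ O)
    (h : IsIntegral R c) :
    ((IsLocalRing.residue ↥O).comp
      ((algebraMap R F).codRestrict O.toSubring hR : R →+* ↥O)).IsIntegralElem
      (IsLocalRing.residue ↥O ⟨c, hc⟩) := by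
  obtain ⟨Q, hQ, hQ0⟩ := h
  refine ⟨Q, hQ, ?_⟩
  have h1 : Q.eval₂ ((algebraMap R F).codRestrict O.toSubring hR : R →+* ↥O) (⟨c, hc⟩ : ↥O)
      = 0 := by
    apply Subtype.ext
    have h2 := Polynomial.hom_eval₂ Q ((algebraMap R F).codRestrict O.toSubring hR : R →+* ↥O)
      O.subtype ⟨c, hc⟩
    exact h2.trans hQ0
  rw [← Polynomial.hom_eval₂, h1, map_zero]

/-- The residue class of an element of the chart of `y` is integral over the subring of the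
residue field generated by the residue classes of `A₀` and of `y`. -/
theorem isIntegral_residue_chart (O₀ : ValuationSubring F₀)
    (hA : ∀ a : A₀, algebraMap A₀ F₀ a ∈ O₀) (y : F₀) (hy : y ∈ O₀)
    (c : F₀) (hc : c ∈ chart A₀ y) (hcO : c ∈ O₀) :
    IsIntegral (Subring.closure (insert (IsLocalRing.residue ↥O₀ ⟨y, hy⟩)
      (Set.range ((IsLocalRing.residue ↥O₀).comp
        ((algebraMap A₀ F₀).codRestrict O₀.toSubring hA : A₀ →+* ↥O₀)))))
      (IsLocalRing.residue ↥O₀ ⟨c, hcO⟩) := by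
  have hadj : ∀ r : Algebra.adjoin A₀ ({y} : Set F₀),
      algebraMap (Algebra.adjoin A₀ ({y} : Set F₀)) F₀ r ∈ O₀ :=
    fun r => adjoin_le_valuationSubring O₀ hA hy r.1 r.2
  have h1 := isIntegralElem_residue O₀ hadj c hcO ((mem_chart_iff A₀).mp hc)
  refine H30.k7_isIntegral_subring_of_isIntegralElem _ _ ?_ _ h1
  rintro ⟨z, hz⟩
  induction hz using Algebra.adjoin_induction with
  | mem z hz =>
    obtain rfl := Set.mem_singleton_iff.mp hz
    exact Subring.subset_closure (Set.mem_insert _ _)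
  | algebraMap a =>
    exact Subring.subset_closure (Set.mem_insert_of_mem _ ⟨a, rfl⟩)
  | add z w hz hw ihz ihw =>
    have h2 : (⟨z + w, add_mem hz hw⟩ : Algebra.adjoin A₀ ({y} : Set F₀))
        = ⟨z, hz⟩ + ⟨w, hw⟩ := rfl
    rw [h2, map_add]
    exact add_mem ihz ihw
  | mul z w hz hw ihz ihw =>
    have h2 : (⟨z * w, mul_mem hz hw⟩ : Algebra.adjoin A₀ ({y} : Set F₀))
        = ⟨z, hz⟩ * ⟨w, hw⟩ := rfl
    rw [h2, map_mul]
    exact mul_mem ihz ihw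

/-- **CH-E `chart_const`**, conditional on `C ∩ 𝔪_{O₀} = ϖ C` (`chart_mem_nonunits`):
`C̄₁ ∩ C̄₂ = k₀`. -/
theorem chart_const_of (ϖ : A₀) (hϖ : ¬ IsUnit ϖ) (O₀ : ValuationSubring F₀) (x : F₀)
    (hS : DSetup A₀ O₀ x) (hS' : DSetup A₀ O₀ x⁻¹)
    (hmn : ∀ c ∈ chart A₀ x, c ∈ O₀.nonunits → ∃ c' ∈ chart A₀ x, c = ϖ • c') :
    ∀ c₁ ∈ chart A₀ x, ∀ c₂ ∈ chart A₀ x⁻¹,
      (∃ n : ℕ, ∃ c ∈ chart A₀ x, x ^ n * (c₁ - c₂) = ϖ • c) →
      ∃ a : A₀, ∃ c ∈ chart A₀ x, c₁ - algebraMap A₀ F₀ a = ϖ • c := by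
  intro c₁ hc₁ c₂ hc₂ ⟨n, c, hc, hrel⟩
  have hnt : Nontrivial A₀ := (algebraMap A₀ F₀).domain_nontrivial
  have hA := algebraMap_mem_of_dsetup hS
  obtain ⟨hx, hx'⟩ := self_mem_of_dsetup hS
  have hx0 : x ≠ 0 := by
    rintro rfl
    exact hS.transc isAlgebraic_zero
  have hc₁O := chart_le_of_dsetup hS c₁ hc₁
  have hc₂O : c₂ ∈ O₀ := chart_le_of_dsetup hS' c₂ hc₂
  have hcO := chart_le_of_dsetup hS c hc
  -- `ϖ` maps to `0` in the residue field
  have hϖres : IsLocalRing.residue ↥O₀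
      (((algebraMap A₀ F₀).codRestrict O₀.toSubring hA : A₀ →+* ↥O₀) ϖ) = 0 := by
    rw [IsLocalRing.residue_eq_zero_iff, IsLocalRing.mem_maximalIdeal, mem_nonunits_iff]
    intro hu
    obtain ⟨v, hv⟩ := hu.exists_right_inv
    have h1 : algebraMap A₀ F₀ ϖ * (v : F₀) = 1 := congrArg Subtype.val hv
    have hϖ0 : ϖ ≠ 0 := by
      rintro rfl
      rw [map_zero, zero_mul] at h1
      exact zero_ne_one h1
    have h2 : algebraMap A₀ F₀ 1 / algebraMap A₀ F₀ ϖ ∈ O₀ := by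
      rw [map_one, one_div, ← eq_inv_of_mul_eq_one_right h1]
      exact v.2
    exact hϖ (isUnit_of_dvd_one ((hS.mem_iff 1 ϖ hϖ0).mp h2))
  have hxx : (⟨x, hx⟩ : ↥O₀) * ⟨x⁻¹, hx'⟩ = 1 := Subtype.ext (mul_inv_cancel₀ hx0)
  have hresx : IsLocalRing.residue ↥O₀ ⟨x, hx⟩ * IsLocalRing.residue ↥O₀ ⟨x⁻¹, hx'⟩ = 1 := by
    rw [← map_mul, hxx, map_one]
  have hresx0 : IsLocalRing.residue ↥O₀ ⟨x, hx⟩ ≠ 0 := left_ne_zero_of_mul_eq_one hresx
  have hinv : IsLocalRing.residue ↥O₀ ⟨x⁻¹, hx'⟩ = (IsLocalRing.residue ↥O₀ ⟨x, hx⟩)⁻¹ :=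
    eq_inv_of_mul_eq_one_right hresx
  -- `c̄₁ = c̄₂`
  have heq : IsLocalRing.residue ↥O₀ ⟨c₁, hc₁O⟩ = IsLocalRing.residue ↥O₀ ⟨c₂, hc₂O⟩ := by
    have h1 : (⟨x, hx⟩ : ↥O₀) ^ n * ((⟨c₁, hc₁O⟩ : ↥O₀) - ⟨c₂, hc₂O⟩)
        = ((algebraMap A₀ F₀).codRestrict O₀.toSubring hA : A₀ →+* ↥O₀) ϖ * ⟨c, hcO⟩ := by
      apply Subtype.ext
      have h3 : ((((algebraMap A₀ F₀).codRestrict O₀.toSubring hA : A₀ →+* ↥O₀) ϖ * ⟨c, hcO⟩ :
          ↥O₀) : F₀) = algebraMap A₀ F₀ ϖ * c := rfl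
      rw [h3, ← Algebra.smul_def, ← hrel]
      rfl
    have h2 := congrArg (IsLocalRing.residue ↥O₀) h1
    rw [map_mul, map_mul, hϖres, zero_mul, map_pow, map_sub] at h2
    exact sub_eq_zero.mp ((mul_eq_zero.mp h2).resolve_left (pow_ne_zero n hresx0))
  -- integrality over the two charts, in the residue field
  have h₁ := isIntegral_residue_chart O₀ hA x hx c₁ hc₁ hc₁O
  have h₂ := isIntegral_residue_chart O₀ hA x⁻¹ hx' c₂ hc₂ hc₂O
  rw [← heq, hinv] at h₂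
  have h₃ := H30.cech_isIntegral_of_two_charts _ _ _ h₁ h₂
  rw [← RingHom.coe_range, Subring.closure_eq] at h₃
  obtain ⟨P, hP, hP0⟩ := H30.k7_isIntegralElem_of_isIntegral_range _ _ h₃
  rw [← Polynomial.hom_eval₂, IsLocalRing.residue_eq_zero_iff] at hP0
  have hP1 : aeval c₁ P ∈ O₀.nonunits := by
    rw [ValuationSubring.mem_nonunits_iff_exists_mem_maximalIdeal]
    have h4 : ((P.eval₂ ((algebraMap A₀ F₀).codRestrict O₀.toSubring hA : A₀ →+* ↥O₀)
        (⟨c₁, hc₁O⟩ : ↥O₀) : ↥O₀) : F₀) = aeval c₁ P :=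
      Polynomial.hom_eval₂ P ((algebraMap A₀ F₀).codRestrict O₀.toSubring hA : A₀ →+* ↥O₀)
        O₀.subtype ⟨c₁, hc₁O⟩
    refine ⟨h4 ▸ Subtype.mem _, ?_⟩
    convert hP0 using 1
    exact Subtype.ext h4.symm
  obtain ⟨a, ha⟩ := hS.const c₁ hc₁O ⟨P, hP, hP1⟩
  obtain ⟨c', hc', hc'eq⟩ := hmn (c₁ - algebraMap A₀ F₀ a)
    (sub_mem hc₁ ((chart A₀ x).algebraMap_mem a)) ha
  exact ⟨a, c', hc', hc'eq⟩

end Fermat.Agent.S18.H72
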