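/-
S18 / wave 4 (helper72): core 2, leaf K2-N (descent to a number field), sub-leaf N-d:
packaging-independent cores of the fields `const` and `const₀` of the descended setup
(reports #1509 G7/G8, #1523 NB).

`K₀` is a subfield of `K`; "a polynomial over `K₀`" is a `P : K[X]` with all coefficients in `K₀`;
"an element of `K₀(x)`" is an `r : F` with `r * Q(x) = P(x)` for such `P`, `Q ≠ 0`.

* `const_of_rat`        : `K₀(x) ∩ K = K₀` (`x` transcendental over `K`);
* `exists_root_residue` : the residue field of `A` is algebraically closed in that of `O`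
                          (`K` algebraically closed);
* `aeval_mem_iff_coeff`, `aeval_mem_nonunits_iff_coeff` : Gauss norm of a polynomial in `x`;
* `const_descend_core`  : a constant `a ∈ A` congruent to `r / e` with `r, e ∈ K₀(x) ∩ O`,
                          `e` a unit, is congruent modulo `𝔪_A` to an element of `K₀ ∩ A`;
* `const_descend`, `const_of_resData`, `const₀_of_resData` : the same in the coordinates of an
                          orthonormal basis (`H80.ResData`).
-/
import Fermat.Agent.S18.H80.Coord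
import Fermat.Agent.S18.H30.CechSkel

set_option autoImplicit false

open IntermediateField Polynomial

noncomputable section

namespace Fermat.Agent.S18.H72

open Fermat.Agent.S18.H80

/-- Coefficientwise membership in a subfield is stable under products. -/
theorem coeff_mul_mem_subfield {K : Type*} [Field K] (K₀ : Subfield K) {P Q : K[X]}
    (hP : ∀ i, P.coeff i ∈ K₀) (hQ : ∀ i, Q.coeff i ∈ K₀) : ∀ i, (P * Q).coeff i ∈ K₀ := by
  intro i
  rw [Polynomial.coeff_mul]
  exact sum_mem fun j _ => mul_mem (hP _) (hQ _)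

/-- Coefficientwise membership in a valuation subring is stable under products. -/
theorem coeff_mul_mem_valuationSubring {K : Type*} [Field K] (A : ValuationSubring K)
    {P Q : K[X]} (hP : ∀ i, P.coeff i ∈ A) (hQ : ∀ i, Q.coeff i ∈ A) :
    ∀ i, (P * Q).coeff i ∈ A := by
  intro i
  rw [Polynomial.coeff_mul]
  exact sum_mem fun j _ => mul_mem (hP _) (hQ _)

/-- **`K₀(x) ∩ K = K₀`**: a constant which is a rational function of `x` over `K₀` lies in
`K₀`. -/
theorem const_of_rat {K F : Type*} [Field K] [Field F] [Algebra K F] (K₀ : Subfield K) (x : F)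
    (hx : Transcendental K x) (c : K) (P Q : K[X]) (hP : ∀ i, P.coeff i ∈ K₀)
    (hQ : ∀ i, Q.coeff i ∈ K₀) (hQ0 : Q ≠ 0)
    (h : algebraMap K F c * aeval x Q = aeval x P) : c ∈ K₀ := by
  have h1 : aeval x (C c * Q - P) = 0 := by
    rw [map_sub, map_mul, aeval_C, h, sub_self]
  have h2 : C c * Q - P = 0 := (transcendental_iff.mp hx) _ h1
  have h3 : c * Q.leadingCoeff = P.coeff Q.natDegree := by
    have h4 := congrArg (fun p => p.coeff Q.natDegree) h2
    simp only [coeff_sub, coeff_C_mul, coeff_zero] at h4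
    exact sub_eq_zero.mp h4
  have h4 : Q.leadingCoeff ≠ 0 := leadingCoeff_ne_zero.mpr hQ0
  have h5 : c = P.coeff Q.natDegree / Q.leadingCoeff := by
    rw [eq_div_iff h4]
    exact h3
  rw [h5]
  exact div_mem (hP _) (hQ _)

/-- A product of elements of `O` which is a nonunit has a nonunit factor. -/
theorem exists_mem_nonunits_of_prod {F : Type*} [Field F] (O : ValuationSubring F)
    (s : Multiset F) (hs : ∀ f ∈ s, f ∈ O) (h : s.prod ∈ O.nonunits) :
    ∃ f ∈ s, f ∈ O.nonunits := by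
  induction s using Multiset.induction_on with
  | empty =>
    rw [Multiset.prod_zero, ValuationSubring.mem_nonunits_iff, map_one] at h
    exact absurd h (lt_irrefl _)
  | cons a s ih =>
    rw [Multiset.prod_cons, ValuationSubring.mem_nonunits_iff, map_mul] at h
    by_cases ha : a ∈ O.nonunits
    · exact ⟨a, Multiset.mem_cons_self a s, ha⟩
    · have ha1 : O.valuation a = 1 := by
        have h1 := (O.valuation_le_one_iff a).mpr (hs a (Multiset.mem_cons_self a s))
        rw [ValuationSubring.mem_nonunits_iff, not_lt] at ha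
        exact le_antisymm h1 ha
      rw [ha1, one_mul] at h
      obtain ⟨f, hf, hf'⟩ := ih (fun f hf => hs f (Multiset.mem_cons_of_mem hf))
        ((ValuationSubring.mem_nonunits_iff O).mpr h)
      exact ⟨f, Multiset.mem_cons_of_mem hf, hf'⟩

/-- **The residue field of `A` is algebraically closed in the residue field of `O`** (`K`
algebraically closed): an element of `O` which is a root modulo `𝔪_O` of a monic polynomial
with coefficients in `A` is congruent to a constant of `A`. -/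
theorem exists_root_residue {K F : Type*} [Field K] [IsAlgClosed K] [Field F] [Algebra K F]
    (A : ValuationSubring K) (O : ValuationSubring F)
    (hmem : ∀ a : K, algebraMap K F a ∈ O ↔ a ∈ A)
    (γ : F) (hγ : γ ∈ O) (P : K[X]) (hP : P.Monic) (hcoef : ∀ i, P.coeff i ∈ A)
    (h : aeval γ P ∈ O.nonunits) : ∃ a ∈ A, γ - algebraMap K F a ∈ O.nonunits := by
  have hprod : P = (P.roots.map fun a => X - C a).prod :=
    (IsAlgClosed.splits P).eq_prod_roots_of_monic hP
  have hroot : ∀ a ∈ P.roots, a ∈ A := by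
    intro a ha
    have hPa : P.eval a = 0 := (Polynomial.mem_roots'.mp ha).2
    have hint : IsIntegral ↥A a := by
      have hlift : P ∈ Polynomial.lifts A.subtype := by
        rw [Polynomial.lifts_iff_coeff_lifts]
        intro n
        exact ⟨⟨P.coeff n, hcoef n⟩, rfl⟩
      obtain ⟨P', hP', -, hP'm⟩ := Polynomial.lifts_and_degree_eq_and_monic hlift hP
      refine ⟨P', hP'm, ?_⟩
      have h1 : Polynomial.eval₂ A.subtype a P' = 0 := by
        rw [← Polynomial.eval_map, hP']
        exact hPa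
      exact h1
    exact H30.k7_mem_valuationSubring_of_isIntegral (R := ↥A) A (fun r => r.2) hint
  have haev : aeval γ P = (P.roots.map fun a => γ - algebraMap K F a).prod := by
    conv_lhs => rw [hprod]
    rw [map_multiset_prod, Multiset.map_map]
    congr 1
    refine Multiset.map_congr rfl fun a _ => ?_
    simp
  rw [haev] at h
  obtain ⟨f, hf, hf'⟩ := exists_mem_nonunits_of_prod O _ (fun f hf => by
    obtain ⟨a, ha, rfl⟩ := Multiset.mem_map.mp hf
    exact sub_mem hγ ((hmem a).mpr (hroot a ha))) h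
  obtain ⟨a, ha, rfl⟩ := Multiset.mem_map.mp hf
  exact ⟨a, hroot a ha, hf'⟩

section Gauss

variable {K : Type*} [Field K] {A : ValuationSubring K} {F : Type*} [Field F] [Algebra K F]
  {O : ValuationSubring F} {x : F}

theorem valuation_eq_one_of_mem_of_inv_mem (O : ValuationSubring F) {u : F} (hu0 : u ≠ 0)
    (h1 : u ∈ O) (h2 : u⁻¹ ∈ O) : O.valuation u = 1 := by
  have a1 := (O.valuation_le_one_iff u).mpr h1
  have a2 := (O.valuation_le_one_iff u⁻¹).mpr h2
  rw [map_inv₀] at a2
  have h0 : O.valuation u ≠ 0 := (_root_.map_ne_zero _).mpr hu0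
  exact le_antisymm a1 ((inv_le_one₀ (zero_lt_iff.mpr h0)).mp a2)

theorem valuation_algebraMap_le_one_iff (hmem : ∀ a : K, algebraMap K F a ∈ O ↔ a ∈ A) (a : K) :
    O.valuation (algebraMap K F a) ≤ 1 ↔ A.valuation a ≤ 1 := by
  rw [O.valuation_le_one_iff, A.valuation_le_one_iff, hmem]

theorem valuation_algebraMap_lt_one_iff (hmem : ∀ a : K, algebraMap K F a ∈ O ↔ a ∈ A) (a : K) :
    O.valuation (algebraMap K F a) < 1 ↔ A.valuation a < 1 := by
  by_cases ha : a = 0
  · subst ha
    simp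
  · have h1 := valuation_algebraMap_le_one_iff hmem a⁻¹
    rw [map_inv₀, map_inv₀, map_inv₀] at h1
    have hO : O.valuation (algebraMap K F a) ≠ 0 :=
      (_root_.map_ne_zero _).mpr ((_root_.map_ne_zero _).mpr ha)
    have hA : A.valuation a ≠ 0 := (_root_.map_ne_zero _).mpr ha
    rw [inv_le_one₀ (zero_lt_iff.mpr hO), inv_le_one₀ (zero_lt_iff.mpr hA)] at h1
    rw [lt_iff_le_and_ne, lt_iff_le_and_ne, valuation_algebraMap_le_one_iff hmem]
    refine and_congr_right fun _ => not_congr ?_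
    constructor
    · intro h
      exact le_antisymm ((valuation_algebraMap_le_one_iff hmem a).mp h.le) (h1.mp h.ge)
    · intro h
      exact le_antisymm ((valuation_algebraMap_le_one_iff hmem a).mpr h.le) (h1.mpr h.ge)

variable (hA : A ≠ ⊤) (hmem : ∀ a : K, algebraMap K F a ∈ O ↔ a ∈ A)
  (hgauss : ∀ p : K[X], (∀ i, p.coeff i ∈ A) → (∃ i, p.coeff i ≠ 0 ∧ (p.coeff i)⁻¹ ∈ A) →
    aeval x p ∈ O ∧ (aeval x p)⁻¹ ∈ O)
include hA hmem hgauss

/-- The Gauss norm of `p(x)` is the largest absolute value of a coefficient of `p`. -/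
theorem gauss_factor {p : K[X]} (hp : p ≠ 0) :
    ∃ c : K, c ≠ 0 ∧ (∀ i, A.valuation (p.coeff i) ≤ A.valuation c) ∧
      (∃ i, A.valuation (p.coeff i) = A.valuation c) ∧
      O.valuation (aeval x p) = O.valuation (algebraMap K F c) := by
  obtain ⟨c', hc', hprim⟩ := exists_smul_isPrim (A := A) hp
  have hunit1 := hprim.aeval_mem hgauss
  have hunit2 := hprim.inv_aeval_mem hgauss
  have hne : aeval x (C c' * p) ≠ 0 := aeval_ne_zero hmem hgauss hA hprim.ne_zero
  rw [isPrim_iff_valuation] at hprim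
  obtain ⟨hle, i₀, hi₀⟩ := hprim
  have hvc' : A.valuation c' ≠ 0 := (_root_.map_ne_zero _).mpr hc'
  refine ⟨c'⁻¹, inv_ne_zero hc', fun i => ?_, ⟨i₀, ?_⟩, ?_⟩
  · have h1 := hle i
    rw [coeff_C_mul, map_mul] at h1
    rw [map_inv₀, ← mul_one (A.valuation c')⁻¹]
    exact (le_inv_mul_iff₀ (zero_lt_iff.mpr hvc')).mpr h1
  · rw [coeff_C_mul, map_mul] at hi₀
    rw [map_inv₀]
    exact eq_inv_of_mul_eq_one_right hi₀
  · have h1 := valuation_eq_one_of_mem_of_inv_mem O hne hunit1 hunit2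
    rw [map_mul, aeval_C, map_mul] at h1
    rw [map_inv₀, map_inv₀]
    exact eq_inv_of_mul_eq_one_right h1

/-- `p(x) ∈ O` iff all coefficients of `p` lie in `A`. -/
theorem aeval_mem_iff_coeff (p : K[X]) : aeval x p ∈ O ↔ ∀ i, p.coeff i ∈ A := by
  by_cases hp : p = 0
  · subst hp
    simp [O.zero_mem, A.zero_mem]
  obtain ⟨c, -, hle, ⟨i₀, hi₀⟩, hv⟩ := gauss_factor hA hmem hgauss hp
  rw [← O.valuation_le_one_iff, hv, valuation_algebraMap_le_one_iff hmem]
  constructor
  · intro h i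
    rw [← A.valuation_le_one_iff]
    exact (hle i).trans h
  · intro h
    rw [← hi₀]
    exact (A.valuation_le_one_iff _).mpr (h i₀)

/-- `p(x) ∈ 𝔪_O` iff all coefficients of `p` lie in `𝔪_A`. -/
theorem aeval_mem_nonunits_iff_coeff (p : K[X]) :
    aeval x p ∈ O.nonunits ↔ ∀ i, p.coeff i ∈ A.nonunits := by
  by_cases hp : p = 0
  · subst hp
    simp
  obtain ⟨c, -, hle, ⟨i₀, hi₀⟩, hv⟩ := gauss_factor hA hmem hgauss hp
  rw [ValuationSubring.mem_nonunits_iff, hv, valuation_algebraMap_lt_one_iff hmem]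
  constructor
  · intro h i
    rw [ValuationSubring.mem_nonunits_iff]
    exact lt_of_le_of_lt (hle i) h
  · intro h
    rw [← hi₀]
    exact (ValuationSubring.mem_nonunits_iff A).mp (h i₀)

end Gauss

section Core

variable {K : Type*} [Field K] {A : ValuationSubring K} {F : Type*} [Field F] [Algebra K F]
  {O : ValuationSubring F} {x : F}

/-- Every nonzero polynomial becomes primitive after division by one of its coefficients. -/
theorem exists_coeff_isPrim {p : K[X]} (hp : p ≠ 0) :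
    ∃ i, p.coeff i ≠ 0 ∧ IsPrim A (C (p.coeff i)⁻¹ * p) := by
  classical
  have hne : p.support.Nonempty := by
    rwa [Finset.nonempty_iff_ne_empty, Ne, Polynomial.support_eq_empty]
  obtain ⟨i₀, hi₀, hmax⟩ := Finset.exists_max_image p.support
    (fun i => A.valuation (p.coeff i)) hne
  have hc0 : p.coeff i₀ ≠ 0 := Polynomial.mem_support_iff.1 hi₀
  refine ⟨i₀, hc0, ?_, i₀, ?_, ?_⟩
  · intro i
    rw [Polynomial.coeff_C_mul]
    by_cases hi : p.coeff i = 0
    · rw [hi, mul_zero]
      exact A.zero_mem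
    · have h1 := hmax i (Polynomial.mem_support_iff.2 hi)
      rw [← A.valuation_le_one_iff, map_mul, map_inv₀]
      have h2 : A.valuation (p.coeff i₀) ≠ 0 := (_root_.map_ne_zero _).2 hc0
      rw [inv_mul_le_iff₀ (zero_lt_iff.2 h2), mul_one]
      exact h1
  · rw [Polynomial.coeff_C_mul, inv_mul_cancel₀ hc0]
    exact one_ne_zero
  · rw [Polynomial.coeff_C_mul, inv_mul_cancel₀ hc0, inv_one]
    exact A.one_mem

variable (hA : A ≠ ⊤) (hmem : ∀ a : K, algebraMap K F a ∈ O ↔ a ∈ A)
  (hgauss : ∀ p : K[X], (∀ i, p.coeff i ∈ A) → (∃ i, p.coeff i ≠ 0 ∧ (p.coeff i)⁻¹ ∈ A) →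
    aeval x p ∈ O ∧ (aeval x p)⁻¹ ∈ O)
include hA hmem hgauss

/-- Core of the descent of constants, primitive denominators. -/
theorem const_descend_prim (K₀ : Subfield K) (a : K)
    (r e : F) (hr : r ∈ O) (he : e ∈ O) (he' : e ∉ O.nonunits)
    (hre : r - algebraMap K F a * e ∈ O.nonunits)
    (Pr Qr Pe Qe : K[X]) (hPr : ∀ i, Pr.coeff i ∈ K₀) (hQr : ∀ i, Qr.coeff i ∈ K₀)
    (hPe : ∀ i, Pe.coeff i ∈ K₀) (hQe : ∀ i, Qe.coeff i ∈ K₀)
    (hQrp : IsPrim A Qr) (hQep : IsPrim A Qe)
    (hreq : r * aeval x Qr = aeval x Pr) (heeq : e * aeval x Qe = aeval x Pe) :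
    ∃ a' ∈ K₀, a' ∈ A ∧ a - a' ∈ A.nonunits := by
  have hQr1 := hQrp.aeval_mem hgauss
  have hQr2 := hQrp.inv_aeval_mem hgauss
  have hQe1 := hQep.aeval_mem hgauss
  have hQe2 := hQep.inv_aeval_mem hgauss
  have hQr0 : aeval x Qr ≠ 0 := aeval_ne_zero hmem hgauss hA hQrp.ne_zero
  have hQe0 : aeval x Qe ≠ 0 := aeval_ne_zero hmem hgauss hA hQep.ne_zero
  have hvQr := valuation_eq_one_of_mem_of_inv_mem O hQr0 hQr1 hQr2
  have hvQe := valuation_eq_one_of_mem_of_inv_mem O hQe0 hQe1 hQe2
  have hPrA : ∀ i, Pr.coeff i ∈ A :=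
    (aeval_mem_iff_coeff hA hmem hgauss Pr).mp (hreq ▸ mul_mem hr hQr1)
  have hPeA : ∀ i, Pe.coeff i ∈ A :=
    (aeval_mem_iff_coeff hA hmem hgauss Pe).mp (heeq ▸ mul_mem he hQe1)
  have hUK := coeff_mul_mem_subfield K₀ hPr hQe
  have hWK := coeff_mul_mem_subfield K₀ hPe hQr
  have hUA := coeff_mul_mem_valuationSubring A hPrA hQep.1
  have hWA := coeff_mul_mem_valuationSubring A hPeA hQrp.1
  have hUW : aeval x (Pr * Qe - C a * (Pe * Qr))
      = (r - algebraMap K F a * e) * (aeval x Qr * aeval x Qe) := by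
    rw [map_sub, map_mul, map_mul, map_mul, aeval_C, ← hreq, ← heeq]
    ring
  have h1 : aeval x (Pr * Qe - C a * (Pe * Qr)) ∈ O.nonunits := by
    rw [hUW, ValuationSubring.mem_nonunits_iff, map_mul, map_mul, hvQr, hvQe, mul_one, mul_one]
    exact (ValuationSubring.mem_nonunits_iff O).mp hre
  have h2 := (aeval_mem_nonunits_iff_coeff hA hmem hgauss _).mp h1
  have hW : aeval x (Pe * Qr) ∉ O.nonunits := by
    rw [map_mul, ← heeq, ValuationSubring.mem_nonunits_iff, map_mul, map_mul, hvQr, hvQe,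
      mul_one, mul_one]
    exact fun h => he' ((ValuationSubring.mem_nonunits_iff O).mpr h)
  have h3 : ¬ ∀ i, (Pe * Qr).coeff i ∈ A.nonunits :=
    fun h => hW ((aeval_mem_nonunits_iff_coeff hA hmem hgauss _).mpr h)
  push Not at h3
  obtain ⟨n, hn⟩ := h3
  have hWn : A.valuation ((Pe * Qr).coeff n) = 1 := by
    rw [ValuationSubring.mem_nonunits_iff, not_lt] at hn
    exact le_antisymm ((A.valuation_le_one_iff _).mpr (hWA n)) hn
  have hW0 : (Pe * Qr).coeff n ≠ 0 := by
    intro h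
    rw [h, map_zero] at hWn
    exact zero_ne_one hWn
  refine ⟨(Pr * Qe).coeff n / (Pe * Qr).coeff n, div_mem (hUK n) (hWK n), ?_, ?_⟩
  · rw [← A.valuation_le_one_iff, map_div₀, hWn, div_one]
    exact (A.valuation_le_one_iff _).mpr (hUA n)
  · have h4 := h2 n
    rw [coeff_sub, coeff_C_mul, ValuationSubring.mem_nonunits_iff] at h4
    rw [ValuationSubring.mem_nonunits_iff]
    have h5 : a - (Pr * Qe).coeff n / (Pe * Qr).coeff n
        = -((Pr * Qe).coeff n - a * (Pe * Qr).coeff n) / (Pe * Qr).coeff n := by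
      field_simp
      ring
    rw [h5, map_div₀, hWn, div_one, Valuation.map_neg]
    exact h4

/-- **Core of the descent of constants** (second half of G8): if `r, e ∈ K₀(x) ∩ O`, `e` a unit
of `O`, and the constant `a` satisfies `r ≡ a e mod 𝔪_O`, then `a` is congruent modulo `𝔪_A`
to an element of `K₀ ∩ A`. -/
theorem const_descend_core (K₀ : Subfield K) (a : K)
    (r e : F) (hr : r ∈ O) (he : e ∈ O) (he' : e ∉ O.nonunits)
    (hre : r - algebraMap K F a * e ∈ O.nonunits)
    (Pr Qr Pe Qe : K[X]) (hPr : ∀ i, Pr.coeff i ∈ K₀) (hQr : ∀ i, Qr.coeff i ∈ K₀)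
    (hPe : ∀ i, Pe.coeff i ∈ K₀) (hQe : ∀ i, Qe.coeff i ∈ K₀)
    (hQr0 : Qr ≠ 0) (hQe0 : Qe ≠ 0)
    (hreq : r * aeval x Qr = aeval x Pr) (heeq : e * aeval x Qe = aeval x Pe) :
    ∃ a' ∈ K₀, a' ∈ A ∧ a - a' ∈ A.nonunits := by
  obtain ⟨i, -, hprim_r⟩ := exists_coeff_isPrim (A := A) hQr0
  obtain ⟨j, -, hprim_e⟩ := exists_coeff_isPrim (A := A) hQe0
  refine const_descend_prim hA hmem hgauss K₀ a r e hr he he' hre
    (C (Qr.coeff i)⁻¹ * Pr) (C (Qr.coeff i)⁻¹ * Qr) (C (Qe.coeff j)⁻¹ * Pe)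
    (C (Qe.coeff j)⁻¹ * Qe)
    (fun k => by rw [coeff_C_mul]; exact mul_mem (inv_mem (hQr i)) (hPr k))
    (fun k => by rw [coeff_C_mul]; exact mul_mem (inv_mem (hQr i)) (hQr k))
    (fun k => by rw [coeff_C_mul]; exact mul_mem (inv_mem (hQe j)) (hPe k))
    (fun k => by rw [coeff_C_mul]; exact mul_mem (inv_mem (hQe j)) (hQe k))
    hprim_r hprim_e ?_ ?_
  · rw [map_mul, map_mul, aeval_C, ← hreq]
    ring
  · rw [map_mul, map_mul, aeval_C, ← heeq]
    ring

end Core

section Coord

variable {K : Type*} [Field K] {A : ValuationSubring K} {F : Type*} [Field F] [Algebra K F]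
  {O : ValuationSubring F} {x : F} {μ : ℕ} {θ : Fin μ → F}

/-- "The coordinates of `f` in the orthonormal basis are rational functions of `x` over `K₀`". -/
def RatCoord (D : ResData A O x θ) (K₀ : Subfield K) (f : F) : Prop :=
  ∀ i, ∃ P Q : K[X], (∀ j, P.coeff j ∈ K₀) ∧ (∀ j, Q.coeff j ∈ K₀) ∧ Q ≠ 0 ∧
    ((D.basisF.repr f i : K⟮x⟯) : F) * aeval x Q = aeval x P

theorem transcendental_of_resData (D : ResData A O x θ) : Transcendental K x := by
  rw [transcendental_iff]
  intro p hp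
  by_contra h
  exact aeval_ne_zero D.mem_iff D.gauss D.ne_top h hp

theorem repr_sub_const (D : ResData A O x θ) (f : F) (a : K) (i : Fin μ) :
    ((D.basisF.repr (f - algebraMap K F a) i : K⟮x⟯) : F)
      = ((D.basisF.repr f i : K⟮x⟯) : F)
        - algebraMap K F a * ((D.basisF.repr 1 i : K⟮x⟯) : F) := by
  have h1 : f - algebraMap K F a = f - (algebraMap K K⟮x⟯ a) • (1 : F) := by
    rw [Algebra.smul_def, mul_one]
    rfl
  rw [h1, map_sub, map_smul]
  rfl

theorem repr_const (D : ResData A O x θ) (a : K) (i : Fin μ) :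
    ((D.basisF.repr (algebraMap K F a) i : K⟮x⟯) : F)
      = algebraMap K F a * ((D.basisF.repr 1 i : K⟮x⟯) : F) := by
  have h1 : algebraMap K F a = (algebraMap K K⟮x⟯ a) • (1 : F) := by
    rw [Algebra.smul_def, mul_one]
    rfl
  have h2 : D.basisF.repr (algebraMap K F a) = (algebraMap K K⟮x⟯ a) • D.basisF.repr 1 := by
    conv_lhs => rw [h1]
    rw [map_smul]
  rw [h2]
  rfl

/-- **Descent of constants in coordinates** (G8, second half): if `γ ∈ O` has `K₀`-rational
coordinates, `1` too, and `γ ≡ a mod 𝔪_O` with `a ∈ A`, then `γ ≡ a' mod 𝔪_O` for some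
`a' ∈ K₀ ∩ A`. -/
theorem const_descend (D : ResData A O x θ) (K₀ : Subfield K) (γ : F) (hγ : γ ∈ O) (a : K)
    (hγa : γ - algebraMap K F a ∈ O.nonunits)
    (hγrat : RatCoord D K₀ γ) (h1rat : RatCoord D K₀ 1) :
    ∃ a' ∈ K₀, a' ∈ A ∧ γ - algebraMap K F a' ∈ O.nonunits := by
  have h2 := (D.mem_nonunits_iff_repr _).mp hγa
  have h3 : ¬ ∀ i, ((D.basisF.repr 1 i : K⟮x⟯) : F) ∈ O.nonunits := by
    intro h
    have h4 := (D.mem_nonunits_iff_repr 1).mpr h
    rw [ValuationSubring.mem_nonunits_iff, map_one] at h4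
    exact lt_irrefl _ h4
  push Not at h3
  obtain ⟨i₀, hi₀⟩ := h3
  obtain ⟨Pr, Qr, hPr, hQr, hQr0, hreq⟩ := hγrat i₀
  obtain ⟨Pe, Qe, hPe, hQe, hQe0, heeq⟩ := h1rat i₀
  obtain ⟨a', ha'K, ha'A, haa'⟩ := const_descend_core D.ne_top D.mem_iff D.gauss K₀ a _ _
    (D.repr_mem hγ i₀) (D.repr_mem O.one_mem i₀) hi₀
    (by rw [← repr_sub_const]; exact h2 i₀) Pr Qr Pe Qe hPr hQr hPe hQe hQr0 hQe0 hreq heeq
  refine ⟨a', ha'K, ha'A, ?_⟩
  have h4 : γ - algebraMap K F a' = (γ - algebraMap K F a) + algebraMap K F (a - a') := by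
    rw [map_sub]
    ring
  rw [h4, ValuationSubring.mem_nonunits_iff]
  exact Valuation.map_add_lt _ ((ValuationSubring.mem_nonunits_iff O).mp hγa)
    ((valuation_algebraMap_lt_one_iff D.mem_iff _).mpr
      ((ValuationSubring.mem_nonunits_iff A).mp haa'))

/-- **`const` in coordinates** (G8): `K` algebraically closed, `γ ∈ O` with `K₀`-rational
coordinates which is a root modulo `𝔪_O` of a monic polynomial with coefficients in `A`:
then `γ ≡ a' mod 𝔪_O` for some `a' ∈ K₀ ∩ A`. -/
theorem const_of_resData [IsAlgClosed K] (D : ResData A O x θ) (K₀ : Subfield K) (γ : F)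
    (hγ : γ ∈ O) (P : K[X]) (hP : P.Monic) (hcoef : ∀ i, P.coeff i ∈ A)
    (h : aeval γ P ∈ O.nonunits) (hγrat : RatCoord D K₀ γ) (h1rat : RatCoord D K₀ 1) :
    ∃ a' ∈ K₀, a' ∈ A ∧ γ - algebraMap K F a' ∈ O.nonunits := by
  obtain ⟨a, -, hγa⟩ := exists_root_residue A O D.mem_iff γ hγ P hP hcoef h
  exact const_descend D K₀ γ hγ a hγa hγrat h1rat

/-- **`const₀` in coordinates** (G7): `K` algebraically closed; an element of `F` algebraic over
`K` with `K₀`-rational coordinates (and `1` too) is a constant of `K₀`. -/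
theorem const₀_of_resData [IsAlgClosed K] (D : ResData A O x θ) (K₀ : Subfield K) (y : F)
    (hy : IsAlgebraic K y) (hyrat : RatCoord D K₀ y) (h1rat : RatCoord D K₀ 1) :
    ∃ c ∈ K₀, y = algebraMap K F c := by
  obtain ⟨c, rfl⟩ : ∃ c : K, algebraMap K F c = y := by
    have hint : IsIntegral K y := hy.isIntegral
    have hdeg : (minpoly K y).degree = 1 :=
      IsAlgClosed.degree_eq_one_of_irreducible K (minpoly.irreducible hint)
    exact minpoly.mem_range_of_degree_eq_one K y hdeg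
  refine ⟨c, ?_, rfl⟩
  have hx : Transcendental K x := transcendental_of_resData D
  have h3 : ∃ i₀, D.basisF.repr 1 i₀ ≠ 0 := by
    by_contra h
    push Not at h
    have h4 : (1 : F) = 0 := by
      rw [← D.sum_repr 1]
      simp [h]
    exact one_ne_zero h4
  obtain ⟨i₀, hi₀⟩ := h3
  obtain ⟨Pr, Qr, hPr, hQr, hQr0, hreq⟩ := hyrat i₀
  obtain ⟨Pe, Qe, hPe, hQe, hQe0, heeq⟩ := h1rat i₀
  have hQe0' : aeval x Qe ≠ 0 := aeval_ne_zero D.mem_iff D.gauss D.ne_top hQe0
  have hPe0 : Pe ≠ 0 := by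
    rintro rfl
    rw [map_zero] at heeq
    rcases mul_eq_zero.mp heeq with h | h
    · exact hi₀ (Subtype.ext h)
    · exact hQe0' h
  apply const_of_rat K₀ x hx c (Pr * Qe) (Pe * Qr) (coeff_mul_mem_subfield K₀ hPr hQe)
    (coeff_mul_mem_subfield K₀ hPe hQr) (mul_ne_zero hPe0 hQr0)
  rw [map_mul, map_mul, ← hreq, ← heeq, repr_const]
  ring

end Coord

end Fermat.Agent.S18.H72
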