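/-
S18 / wave 4 (helper72): core 2, leaf K2-N, sub-leaf N-d: the fields `const` and `const₀` of the
descended setup `DSetup (A ∩ K₀) (O ∩ F₀) x₀`, VERBATIM in the packaging of `exists_descent`
(`K₀ : IntermediateField ℚ ℚ̄`, `F₀ : IntermediateField K₀ F`, `algComap`), from the hypothesis
that the coordinates of the elements of `F₀` in the orthonormal basis are `K₀`-rational.
-/
import Fermat.Agent.S18.H72.DescConst
import Fermat.Agent.S18.H19.Core2Defs

set_option autoImplicit false

open IntermediateField Polynomial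

noncomputable section

namespace Fermat.Agent.S18.H72

open Fermat.Agent.S18.H80 Fermat.Agent.S18.H19

local notation "Qb" => AlgebraicClosure ℚ

variable (A : ValuationSubring Qb) {F : Type} [Field F] [Algebra Qb F] (O : ValuationSubring F)
  {x : F} {μ : ℕ} {θ : Fin μ → F}

/-- Nonunits of a comap. -/
theorem mem_nonunits_comap_iff {E E' : Type*} [Field E] [Field E'] (φ : E →+* E')
    (V : ValuationSubring E') (y : E) : y ∈ (V.comap φ).nonunits ↔ φ y ∈ V.nonunits := by
  rw [ValuationSubring.mem_nonunits_iff_or, ValuationSubring.mem_nonunits_iff_or,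
    ValuationSubring.mem_comap, map_inv₀, map_eq_zero]

/-- The two ring homomorphisms `A ∩ K₀ → F` agree. -/
theorem algComap_coe (K₀ : IntermediateField ℚ Qb) (F₀ : IntermediateField K₀ F)
    (a : ↥(A.comap (algebraMap K₀ Qb))) :
    letI := algComap (A.comap (algebraMap K₀ Qb)) F₀
    ((algebraMap ↥(A.comap (algebraMap K₀ Qb)) F₀ a : F₀) : F)
      = algebraMap Qb F (algebraMap K₀ Qb (a : K₀)) := by
  rfl

/-- Evaluation of a polynomial over `A ∩ K₀` at an element of `F₀`, computed in `F`. -/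
theorem algComap_aeval (K₀ : IntermediateField ℚ Qb) (F₀ : IntermediateField K₀ F)
    (P : (↥(A.comap (algebraMap K₀ Qb)))[X]) (γ : F₀) :
    letI := algComap (A.comap (algebraMap K₀ Qb)) F₀
    ((aeval γ P : F₀) : F)
      = aeval (γ : F) (P.map ((algebraMap K₀ Qb).comp (A.comap (algebraMap K₀ Qb)).subtype)) := by
  let _ := algComap (A.comap (algebraMap K₀ Qb)) F₀
  rw [aeval_def, aeval_def, eval₂_map]
  exact Polynomial.hom_eval₂ P (algebraMap ↥(A.comap (algebraMap K₀ Qb)) F₀)
    (algebraMap F₀ F) γ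

/-- **`DSetup.const`** for the descended data (verbatim clause). -/
theorem dsetup_const (D : ResData A O x θ) (K₀ : IntermediateField ℚ Qb)
    (F₀ : IntermediateField K₀ F) (hrat : ∀ f : F₀, RatCoord D K₀.toSubfield (f : F)) :
    letI := algComap (A.comap (algebraMap K₀ Qb)) F₀
    ∀ γ ∈ O.comap (algebraMap F₀ F),
      (∃ P : (↥(A.comap (algebraMap K₀ Qb)))[X], P.Monic ∧
        aeval γ P ∈ (O.comap (algebraMap F₀ F)).nonunits) →
      ∃ a : ↥(A.comap (algebraMap K₀ Qb)),
        γ - algebraMap ↥(A.comap (algebraMap K₀ Qb)) F₀ a ∈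
          (O.comap (algebraMap F₀ F)).nonunits := by
  let _ := algComap (A.comap (algebraMap K₀ Qb)) F₀
  intro γ hγ ⟨P, hP, hPγ⟩
  have hγ' : (γ : F) ∈ O := hγ
  have hP' : (P.map ((algebraMap K₀ Qb).comp (A.comap (algebraMap K₀ Qb)).subtype)).Monic :=
    hP.map _
  have hcoef : ∀ i, (P.map ((algebraMap K₀ Qb).comp
      (A.comap (algebraMap K₀ Qb)).subtype)).coeff i ∈ A := by
    intro i
    rw [coeff_map]
    exact (P.coeff i).2
  have h : aeval (γ : F) (P.map ((algebraMap K₀ Qb).comp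
      (A.comap (algebraMap K₀ Qb)).subtype)) ∈ O.nonunits := by
    rw [← algComap_aeval A K₀ F₀ P γ]
    exact (mem_nonunits_comap_iff (algebraMap F₀ F) O _).mp hPγ
  have h1 : RatCoord D K₀.toSubfield (1 : F) := hrat 1
  obtain ⟨a', ha'K, ha'A, ha'⟩ := const_of_resData D K₀.toSubfield (γ : F) hγ' _ hP' hcoef h
    (hrat γ) h1
  refine ⟨⟨⟨a', ha'K⟩, ha'A⟩, ?_⟩
  rw [mem_nonunits_comap_iff]
  exact ha'

/-- **`DSetup.const₀`** for the descended data (verbatim clause). -/
theorem dsetup_const₀ (D : ResData A O x θ) (K₀ : IntermediateField ℚ Qb)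
    (F₀ : IntermediateField K₀ F) (hrat : ∀ f : F₀, RatCoord D K₀.toSubfield (f : F)) :
    letI := algComap (A.comap (algebraMap K₀ Qb)) F₀
    ∀ y : F₀, IsIntegral ↥(A.comap (algebraMap K₀ Qb)) y →
      ∃ a : ↥(A.comap (algebraMap K₀ Qb)),
        y = algebraMap ↥(A.comap (algebraMap K₀ Qb)) F₀ a := by
  let _ := algComap (A.comap (algebraMap K₀ Qb)) F₀
  intro y ⟨P, hP, hPy⟩
  have hPy' : aeval (y : F) (P.map ((algebraMap K₀ Qb).comp
      (A.comap (algebraMap K₀ Qb)).subtype)) = 0 := by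
    rw [← algComap_aeval A K₀ F₀ P y, aeval_def, hPy]
    rfl
  have hy : IsAlgebraic Qb (y : F) :=
    IsIntegral.isAlgebraic ⟨_, hP.map _, hPy'⟩
  have h1 : RatCoord D K₀.toSubfield (1 : F) := hrat 1
  obtain ⟨c, hcK, hc⟩ := const₀_of_resData D K₀.toSubfield (y : F) hy (hrat y) h1
  have hcA : c ∈ A := by
    let _ : Algebra ↥(A.comap (algebraMap K₀ Qb)) Qb :=
      ((algebraMap K₀ Qb).comp (A.comap (algebraMap K₀ Qb)).subtype).toAlgebra
    have hint : IsIntegral ↥(A.comap (algebraMap K₀ Qb)) c := by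
      refine ⟨P, hP, ?_⟩
      have h2 : algebraMap Qb F (P.eval₂ ((algebraMap K₀ Qb).comp
          (A.comap (algebraMap K₀ Qb)).subtype) c) = 0 := by
        rw [Polynomial.hom_eval₂, ← hc, ← eval₂_map]
        exact hPy'
      exact (map_eq_zero _).mp h2
    exact H30.k7_mem_valuationSubring_of_isIntegral
      (R := ↥(A.comap (algebraMap K₀ Qb))) A (fun r => r.2) hint
  refine ⟨⟨⟨c, hcK⟩, hcA⟩, ?_⟩
  apply Subtype.ext
  exact hc

end Fermat.Agent.S18.H72
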