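/-
S18 / wave 4 (helper72): core 2, leaf K2-N, leaves N-CONST and N-CONST0 of the sub-skeleton
`H8/DescentSkel.lean` (report #1633), VERBATIM:

* `GP.dsetup_const`  : the field `DSetup.const`  of the descended setup of a good pair (G8);
* `GP.dsetup_const₀` : the field `DSetup.const₀` of the descended setup of a good pair (G7).

From the packaging-independent cores of `DescConst.lean`.
-/
import Fermat.Agent.S18.H72.DescConst
import Fermat.Agent.S18.H19.Core2Defs
import Fermat.Agent.S18.H80.OfSetup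
import Fermat.Agent.S18.H8.DescentDefs

set_option autoImplicit false

open IntermediateField Polynomial

noncomputable section

namespace Fermat.Agent.S18.H72.GP

open Fermat.Agent.S18.H74 Fermat.Agent.S18.H19 Fermat.Agent.S18.H80 Fermat.Agent.S18.H8
  Fermat.Agent.S18.H72

/-- Nonunits of a comap. -/
theorem mem_nonunits_comap_iff {E E' : Type*} [Field E] [Field E'] (φ : E →+* E')
    (V : ValuationSubring E') (y : E) : y ∈ (V.comap φ).nonunits ↔ φ y ∈ V.nonunits := by
  rw [ValuationSubring.mem_nonunits_iff_or, ValuationSubring.mem_nonunits_iff_or,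
    ValuationSubring.mem_comap, map_inv₀, map_eq_zero]

variable {k K : Type*} [Field k] [Field K] [Algebra k K]
  (A : ValuationSubring K) {F : Type*} [Field F] [Algebra K F] (O : ValuationSubring F)
  (K₀ : IntermediateField k K) (F₀ : IntermediateField K₀ F) (x : F)

/-- Evaluation of a polynomial over `A ∩ K₀` at an element of `F₀`, computed in `F`. -/
theorem algComap_aeval (P : (↥(A.comap (algebraMap K₀ K)))[X]) (γ : F₀) :
    letI := algComap (A.comap (algebraMap K₀ K)) F₀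
    ((aeval γ P : F₀) : F)
      = aeval (γ : F) (P.map ((algebraMap K₀ K).comp (A.comap (algebraMap K₀ K)).subtype)) := by
  let _ := algComap (A.comap (algebraMap K₀ K)) F₀
  rw [aeval_def, aeval_def, eval₂_map]
  exact Polynomial.hom_eval₂ P (algebraMap ↥(A.comap (algebraMap K₀ K)) F₀)
    (algebraMap F₀ F) γ

variable {A O K₀ F₀ x}

/-- In a good pair the coordinates of the elements of `F₀` are `K₀`-rational. -/
theorem ratCoord_of_goodPair {μ : ℕ} {θ : Fin μ → F} (D : ResData A O x θ)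
    (hG : GoodPair x K₀ F₀ θ) (f : F) (hf : f ∈ F₀) : RatCoord D K₀.toSubfield f := by
  obtain ⟨r, hr⟩ := hG.coord f hf
  have key : ∀ i, ∃ P Q : K[X], (∀ j, P.coeff j ∈ K₀.toSubfield) ∧
      (∀ j, Q.coeff j ∈ K₀.toSubfield) ∧ Q ≠ 0 ∧
      ((r i : K₀⟮x⟯) : F) * aeval x Q = aeval x P := by
    intro i
    obtain ⟨P₀, Q₀, hPQ⟩ := (IntermediateField.mem_adjoin_simple_iff K₀ _).mp (r i).2
    by_cases hQ : aeval x Q₀ = 0
    · refine ⟨0, 1, fun j => ?_, fun j => ?_, one_ne_zero, ?_⟩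
      · rw [coeff_zero]
        exact zero_mem _
      · rw [coeff_one]
        split_ifs
        · exact one_mem _
        · exact zero_mem _
      · rw [hPQ, hQ, div_zero, zero_mul, map_zero]
    · refine ⟨P₀.map (algebraMap K₀ K), Q₀.map (algebraMap K₀ K), fun j => ?_, fun j => ?_,
        ?_, ?_⟩
      · rw [coeff_map]
        exact (P₀.coeff j).2
      · rw [coeff_map]
        exact (Q₀.coeff j).2
      · intro h
        apply hQ
        rw [← aeval_map_algebraMap K, h, map_zero]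
      · rw [aeval_map_algebraMap, aeval_map_algebraMap, hPQ, div_mul_cancel₀ _ hQ]
  have hmemK : ∀ i, ((r i : K₀⟮x⟯) : F) ∈ K⟮x⟯ := by
    intro i
    obtain ⟨P, Q, -, -, hQ0, h⟩ := key i
    have hQx : aeval x Q ≠ 0 := aeval_ne_zero D.mem_iff D.gauss D.ne_top hQ0
    rw [IntermediateField.mem_adjoin_simple_iff]
    exact ⟨P, Q, by rw [← h, mul_div_cancel_right₀ _ hQx]⟩
  intro i
  obtain ⟨P, Q, hP, hQ, hQ0, h⟩ := key i
  refine ⟨P, Q, hP, hQ, hQ0, ?_⟩
  have h1 : D.basisF.repr f i = ⟨((r i : K₀⟮x⟯) : F), hmemK i⟩ := by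
    have h2 := D.repr_sum (fun j => (⟨((r j : K₀⟮x⟯) : F), hmemK j⟩ : K⟮x⟯)) i
    rw [← h2]
    congr 2
  rw [h1]
  exact h

variable (A O K₀ F₀ x)

/-- (N-CONST) `DSetup.const`  (G8). -/
theorem dsetup_const [IsAlgClosed K] (hA : A ≠ ⊤) (hS : Setup K A F O x)
    (θ : Fin (Module.finrank K⟮x⟯ F) → F)
    (horth : ∀ r : Fin (Module.finrank K⟮x⟯ F) → K⟮x⟯,
      (∑ i, (r i : F) * θ i) ∈ O ↔ ∀ i, (r i : F) ∈ O)
    (hgram : ((gramDet K F x θ : K⟮x⟯) : F)⁻¹ ∈ O)
    (hG : GoodPair x K₀ F₀ θ) :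
    letI := algComap (A.comap (algebraMap K₀ K)) F₀
    ∀ γ ∈ O.comap (algebraMap F₀ F),
      (∃ P : (↥(A.comap (algebraMap K₀ K)))[X], P.Monic ∧
        aeval γ P ∈ (O.comap (algebraMap F₀ F)).nonunits) →
      ∃ a : ↥(A.comap (algebraMap K₀ K)),
        γ - algebraMap ↥(A.comap (algebraMap K₀ K)) F₀ a ∈ (O.comap (algebraMap F₀ F)).nonunits := by
  let _ := algComap (A.comap (algebraMap K₀ K)) F₀
  have D := resData_of_setup hA hS θ horth hgram
  intro γ hγ ⟨P, hP, hPγ⟩
  have hγ' : (γ : F) ∈ O := hγ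
  have hP' : (P.map ((algebraMap K₀ K).comp (A.comap (algebraMap K₀ K)).subtype)).Monic :=
    hP.map _
  have hcoef : ∀ i, (P.map ((algebraMap K₀ K).comp
      (A.comap (algebraMap K₀ K)).subtype)).coeff i ∈ A := by
    intro i
    rw [coeff_map]
    exact (P.coeff i).2
  have h : aeval (γ : F) (P.map ((algebraMap K₀ K).comp
      (A.comap (algebraMap K₀ K)).subtype)) ∈ O.nonunits := by
    rw [← algComap_aeval A K₀ F₀ P γ]
    exact (mem_nonunits_comap_iff (algebraMap F₀ F) O _).mp hPγ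
  obtain ⟨a', ha'K, ha'A, ha'⟩ := const_of_resData D K₀.toSubfield (γ : F) hγ' _ hP' hcoef h
    (ratCoord_of_goodPair D hG _ γ.2) (ratCoord_of_goodPair D hG 1 (one_mem _))
  refine ⟨⟨⟨a', ha'K⟩, ha'A⟩, ?_⟩
  rw [mem_nonunits_comap_iff]
  exact ha'

/-- (N-CONST0) `DSetup.const₀`  (G7). -/
theorem dsetup_const₀ [IsAlgClosed K] (hA : A ≠ ⊤) (hx : Transcendental K x)
    (hS : Setup K A F O x)
    (θ : Fin (Module.finrank K⟮x⟯ F) → F)
    (horth : ∀ r : Fin (Module.finrank K⟮x⟯ F) → K⟮x⟯,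
      (∑ i, (r i : F) * θ i) ∈ O ↔ ∀ i, (r i : F) ∈ O)
    (hgram : ((gramDet K F x θ : K⟮x⟯) : F)⁻¹ ∈ O)
    (hG : GoodPair x K₀ F₀ θ) :
    letI := algComap (A.comap (algebraMap K₀ K)) F₀
    ∀ y : F₀, IsIntegral ↥(A.comap (algebraMap K₀ K)) y →
      ∃ a : ↥(A.comap (algebraMap K₀ K)), y = algebraMap ↥(A.comap (algebraMap K₀ K)) F₀ a := by
  let _ := algComap (A.comap (algebraMap K₀ K)) F₀
  have _hx := hx
  have D := resData_of_setup hA hS θ horth hgram
  intro y ⟨P, hP, hPy⟩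
  have hPy' : aeval (y : F) (P.map ((algebraMap K₀ K).comp
      (A.comap (algebraMap K₀ K)).subtype)) = 0 := by
    rw [← algComap_aeval A K₀ F₀ P y, aeval_def, hPy]
    rfl
  have hy : IsAlgebraic K (y : F) :=
    IsIntegral.isAlgebraic ⟨_, hP.map _, hPy'⟩
  obtain ⟨c, hcK, hc⟩ := const₀_of_resData D K₀.toSubfield (y : F) hy
    (ratCoord_of_goodPair D hG _ y.2) (ratCoord_of_goodPair D hG 1 (one_mem _))
  have hcA : c ∈ A := by
    let _ : Algebra ↥(A.comap (algebraMap K₀ K)) K :=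
      ((algebraMap K₀ K).comp (A.comap (algebraMap K₀ K)).subtype).toAlgebra
    have hint : IsIntegral ↥(A.comap (algebraMap K₀ K)) c := by
      refine ⟨P, hP, ?_⟩
      have h2 : algebraMap K F (P.eval₂ ((algebraMap K₀ K).comp
          (A.comap (algebraMap K₀ K)).subtype) c) = 0 := by
        rw [Polynomial.hom_eval₂, ← hc, ← eval₂_map]
        exact hPy'
      exact (map_eq_zero _).mp h2
    exact H30.k7_mem_valuationSubring_of_isIntegral
      (R := ↥(A.comap (algebraMap K₀ K))) A (fun r => r.2) hint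
  refine ⟨⟨⟨c, hcK⟩, hcA⟩, ?_⟩
  apply Subtype.ext
  exact hc

end Fermat.Agent.S18.H72.GP
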