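/-
S18 / wave 4 (helper72): Leaf K1 of the Kummer-Cech sub-skeleton (report #1282).
Part 1: the local ring of a Noetherian domain `R` at a maximal ideal `x ∋ ϖ`, where `R ⧸ ϖ R`
is a Dedekind domain, is a unique factorisation domain (elementary proof: Dedekind ideal
arithmetic in `R ⧸ ϖ R`, Nakayama, Kaplansky's criterion).
-/
import Mathlib

set_option autoImplicit false

namespace Fermat.Agent.S18.H72

/-- Local generation: for every ideal `q` of `R` there are `g ∈ q` and `s ∉ x` with
`s • q ⊆ g R + ϖ R`, as soon as `R ⧸ ϖ R` is a Dedekind domain and `ϖ ∈ x`, `x` maximal. -/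
theorem exists_local_gen {R : Type*} [CommRing R] (ϖ : R)
    (hded : IsDedekindDomain (R ⧸ Ideal.span {ϖ}))
    (x : Ideal R) (hx : x.IsMaximal) (hϖx : ϖ ∈ x) (q : Ideal R) :
    ∃ g ∈ q, ∃ s : R, s ∉ x ∧ ∀ y ∈ q, ∃ c e : R, s * y = g * c + ϖ * e := by
  classical
  have hsurj : Function.Surjective (Ideal.Quotient.mk (Ideal.span {ϖ})) :=
    Ideal.Quotient.mk_surjective
  have hIx : Ideal.span {ϖ} ≤ x := (Ideal.span_singleton_le_iff_mem _).mpr hϖx
  have hxb : x.map (Ideal.Quotient.mk (Ideal.span {ϖ})) ≠ ⊤ := by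
    intro h
    have h1 := Ideal.comap_map_of_surjective (Ideal.Quotient.mk (Ideal.span {ϖ})) hsurj x
    rw [h, Ideal.comap_top] at h1
    have h2 : Ideal.comap (Ideal.Quotient.mk (Ideal.span {ϖ})) ⊥ ≤ x := by
      intro z hz
      rw [Ideal.mem_comap, Ideal.mem_bot, Ideal.Quotient.eq_zero_iff_mem] at hz
      exact hIx hz
    rw [sup_of_le_left h2] at h1
    exact hx.ne_top h1.symm
  by_cases hqb : q.map (Ideal.Quotient.mk (Ideal.span {ϖ})) = ⊥
  · refine ⟨0, q.zero_mem, 1, (Ideal.ne_top_iff_one x).mp hx.ne_top, fun y hy => ?_⟩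
    have h1 : Ideal.Quotient.mk (Ideal.span {ϖ}) y ∈ q.map (Ideal.Quotient.mk (Ideal.span {ϖ})) :=
      Ideal.mem_map_of_mem _ hy
    rw [hqb, Ideal.mem_bot, Ideal.Quotient.eq_zero_iff_mem, Ideal.mem_span_singleton] at h1
    obtain ⟨e, rfl⟩ := h1
    exact ⟨0, e, by ring⟩
  · have hlt : x.map (Ideal.Quotient.mk (Ideal.span {ϖ})) * q.map (Ideal.Quotient.mk (Ideal.span {ϖ}))
        < q.map (Ideal.Quotient.mk (Ideal.span {ϖ})) := by
      refine lt_of_le_of_ne Ideal.mul_le_right ?_
      intro h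
      have h1 : x.map (Ideal.Quotient.mk (Ideal.span {ϖ})) * q.map (Ideal.Quotient.mk (Ideal.span {ϖ}))
          = 1 * q.map (Ideal.Quotient.mk (Ideal.span {ϖ})) := by rw [one_mul]; exact h
      have h2 := mul_right_cancel₀ hqb h1
      exact hxb (by rw [h2, Ideal.one_eq_top])
    obtain ⟨gb, hgb, hgb'⟩ := SetLike.exists_of_lt hlt
    obtain ⟨J, hJ⟩ : q.map (Ideal.Quotient.mk (Ideal.span {ϖ})) ∣ Ideal.span {gb} :=
      Ideal.dvd_iff_le.mpr ((Ideal.span_singleton_le_iff_mem _).mpr hgb)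
    have hJx : ¬ J ≤ x.map (Ideal.Quotient.mk (Ideal.span {ϖ})) := by
      intro hJx
      apply hgb'
      have h1 : gb ∈ Ideal.span {gb} := Ideal.mem_span_singleton_self gb
      rw [hJ] at h1
      rw [mul_comm]
      exact Ideal.mul_mono_right hJx h1
    obtain ⟨sb, hsb, hsb'⟩ := SetLike.not_le_iff_exists.mp hJx
    obtain ⟨g, hg, rfl⟩ := (Ideal.mem_map_iff_of_surjective _ hsurj).mp hgb
    obtain ⟨s, rfl⟩ := hsurj sb
    refine ⟨g, hg, s, fun hs => hsb' (Ideal.mem_map_of_mem _ hs), fun y hy => ?_⟩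
    have h1 : Ideal.Quotient.mk (Ideal.span {ϖ}) s * Ideal.Quotient.mk (Ideal.span {ϖ}) y
        ∈ Ideal.span {Ideal.Quotient.mk (Ideal.span {ϖ}) g} := by
      rw [hJ, mul_comm (Ideal.Quotient.mk (Ideal.span {ϖ}) s)]
      exact Ideal.mul_mem_mul (Ideal.mem_map_of_mem _ hy) hsb
    obtain ⟨cb, hcb⟩ := Ideal.mem_span_singleton'.mp h1
    obtain ⟨c, rfl⟩ := hsurj cb
    have h2 : s * y - g * c ∈ Ideal.span {ϖ} := by
      rw [← Ideal.Quotient.eq_zero_iff_mem, map_sub, map_mul, map_mul, ← hcb]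
      ring
    obtain ⟨e, he⟩ := Ideal.mem_span_singleton.mp h2
    exact ⟨c, e, by linear_combination he⟩

/-- Kaplansky + Nakayama: a Noetherian domain with a prime element `ϖ` in the Jacobson radical
such that every prime not containing `ϖ` is principal modulo `ϖ` is a UFD. -/
theorem ufd_of_nakayama {D : Type*} [CommRing D] [IsDomain D] [IsNoetherianRing D] (ϖ : D)
    (hϖ : Prime ϖ) (hjac : ϖ ∈ Ideal.jacobson (⊥ : Ideal D))
    (hP : ∀ Q : Ideal D, Q.IsPrime → ϖ ∉ Q →
      ∃ g ∈ Q, ∀ y ∈ Q, ∃ c e : D, y = g * c + ϖ * e) :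
    UniqueFactorizationMonoid D := by
  rw [UniqueFactorizationMonoid.iff_exists_prime_mem_of_isPrime]
  intro Q hQ0 hQ
  by_cases hϖQ : ϖ ∈ Q
  · exact ⟨ϖ, hϖQ, hϖ⟩
  · obtain ⟨g, hg, hgen⟩ := hP Q hQ hϖQ
    have hle : Q ≤ Ideal.span {g} := by
      apply Submodule.le_of_le_smul_of_le_jacobson_bot (I := Ideal.span {ϖ})
        (IsNoetherian.noetherian Q) ((Ideal.span_singleton_le_iff_mem _).mpr hjac)
      intro y hy
      obtain ⟨c, e, rfl⟩ := hgen y hy
      have he : e ∈ Q := by
        have h2 : g * c ∈ Q := Q.mul_mem_right c hg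
        have h3 : ϖ * e ∈ Q := by simpa using Q.sub_mem hy h2
        exact (hQ.mem_or_mem h3).resolve_left hϖQ
      refine Submodule.add_mem_sup (Ideal.mem_span_singleton.mpr ⟨c, rfl⟩) ?_
      exact Submodule.smul_mem_smul (Ideal.mem_span_singleton_self ϖ) he
    have hQeq : Q = Ideal.span {g} :=
      le_antisymm hle ((Ideal.span_singleton_le_iff_mem _).mpr hg)
    have hg0 : g ≠ 0 := by
      rintro rfl
      apply hQ0
      simpa using hQeq
    exact ⟨g, hg, (Ideal.span_singleton_prime hg0).mp (hQeq ▸ hQ)⟩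

/-- The local ring of `R` at a maximal ideal `x ∋ ϖ` is a UFD when `R ⧸ ϖ R` is Dedekind. -/
theorem ufd_localization {R : Type*} [CommRing R] [IsDomain R] [IsNoetherianRing R] (ϖ : R)
    (hϖ0 : ϖ ≠ 0) (hded : IsDedekindDomain (R ⧸ Ideal.span {ϖ}))
    (x : Ideal R) (hx : x.IsMaximal) (hϖx : ϖ ∈ x)
    (D : Type*) [CommRing D] [IsDomain D] [Algebra R D] [IsLocalization.AtPrime D x] :
    UniqueFactorizationMonoid D := by
  classical
  have hM : x.primeCompl ≤ nonZeroDivisors R := Ideal.primeCompl_le_nonZeroDivisors x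
  have hinj : Function.Injective (algebraMap R D) := IsLocalization.injective D hM
  have : IsNoetherianRing D := IsLocalization.isNoetherianRing x.primeCompl D inferInstance
  have : IsLocalRing D := IsLocalization.AtPrime.isLocalRing D x
  have hϖprime : (Ideal.span {ϖ} : Ideal R).IsPrime :=
    (Ideal.Quotient.isDomain_iff_prime _).mp hded.toIsDomain
  have hIx : Ideal.span {ϖ} ≤ x := (Ideal.span_singleton_le_iff_mem _).mpr hϖx
  have hdisj : Disjoint (x.primeCompl : Set R) ((Ideal.span {ϖ} : Ideal R) : Set R) := by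
    rw [Set.disjoint_left]
    intro z hz hz'
    exact hz (hIx hz')
  have hϖD : Prime (algebraMap R D ϖ) := by
    have h1 := IsLocalization.isPrime_of_isPrime_disjoint x.primeCompl D _ hϖprime hdisj
    rw [Ideal.map_span, Set.image_singleton] at h1
    exact (Ideal.span_singleton_prime ((map_ne_zero_iff _ hinj).mpr hϖ0)).mp h1
  refine ufd_of_nakayama (algebraMap R D ϖ) hϖD ?_ ?_
  · rw [IsLocalRing.jacobson_eq_maximalIdeal ⊥ bot_ne_top]
    exact (IsLocalization.AtPrime.to_map_mem_maximal_iff D x ϖ).mpr hϖx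
  · intro Q hQ hϖQ
    obtain ⟨g, hg, s, hs, hgen⟩ := exists_local_gen ϖ hded x hx hϖx (Q.comap (algebraMap R D))
    refine ⟨algebraMap R D g, hg, fun Y hY => ?_⟩
    obtain ⟨⟨y, m⟩, hym⟩ := IsLocalization.surj x.primeCompl Y
    have hyQ : y ∈ Q.comap (algebraMap R D) := by
      rw [Ideal.mem_comap, ← hym]
      exact Q.mul_mem_right _ hY
    obtain ⟨c, e, hce⟩ := hgen y hyQ
    obtain ⟨u, hu⟩ := (IsLocalization.map_units D
      (⟨s * m, x.primeCompl.mul_mem hs m.2⟩ : x.primeCompl)).exists_left_inv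
    refine ⟨algebraMap R D c * u, algebraMap R D e * u, ?_⟩
    have h1 : Y * algebraMap R D (s * m)
        = algebraMap R D g * algebraMap R D c + algebraMap R D ϖ * algebraMap R D e := by
      have h2 : Y * algebraMap R D (s * m) = algebraMap R D (s * y) := by
        rw [map_mul, map_mul, ← hym]
        ring
      rw [h2, hce, map_add, map_mul, map_mul]
    calc Y = Y * algebraMap R D (s * m) * u := by
          rw [mul_assoc, mul_comm _ u, hu, mul_one]
      _ = _ := by rw [h1]; ring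

/-- The discrete valuation ring attached to a prime element `q` of a Noetherian domain `D`,
as a valuation subring of the fraction field. -/
theorem exists_dvr_of_prime {D F : Type*} [CommRing D] [IsDomain D] [IsNoetherianRing D]
    [Field F] [Algebra D F] [IsFractionRing D F] (q : D) (hq : Prime q) :
    ∃ V : ValuationSubring F, IsDiscreteValuationRing V ∧
      ∀ y : F, y ∈ V ↔ ∃ c d : D, ¬ q ∣ d ∧ y = algebraMap D F c * (algebraMap D F d)⁻¹ := by
  classical
  have hP : (Ideal.span {q} : Ideal D).IsPrime :=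
    (Ideal.span_singleton_prime hq.ne_zero).mpr hq
  have hS : (Ideal.span {q} : Ideal D).primeCompl ≤ nonZeroDivisors D :=
    Ideal.primeCompl_le_nonZeroDivisors _
  let U : Subalgebra D F :=
    Localization.subalgebra.ofField F (Ideal.span {q} : Ideal D).primeCompl hS
  have hloc : IsLocalization.AtPrime ↥U (Ideal.span {q} : Ideal D) :=
    Localization.subalgebra.isLocalization_ofField F _ hS
  have : IsLocalRing ↥U := IsLocalization.AtPrime.isLocalRing ↥U (Ideal.span {q})
  have : IsNoetherianRing ↥U :=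
    IsLocalization.isNoetherianRing (Ideal.span {q} : Ideal D).primeCompl ↥U inferInstance
  have hmax : IsLocalRing.maximalIdeal ↥U = Ideal.span {algebraMap D ↥U q} := by
    rw [← IsLocalization.AtPrime.map_eq_maximalIdeal (Ideal.span {q}) ↥U, Ideal.map_span,
      Set.image_singleton]
  have hprinc : (IsLocalRing.maximalIdeal ↥U).IsPrincipal := ⟨⟨_, hmax⟩⟩
  have : IsPrincipalIdealRing ↥U :=
    ((tfae_of_isNoetherianRing_of_isLocalRing_of_isDomain ↥U).out 4 0).mp hprinc
  have hne : IsLocalRing.maximalIdeal ↥U ≠ ⊥ := by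
    rw [hmax, Ne, Ideal.span_singleton_eq_bot]
    intro h
    have h1 : algebraMap D F q = 0 := by
      have h2 := congrArg Subtype.val h
      simpa using h2
    exact hq.ne_zero ((map_eq_zero_iff _ (IsFractionRing.injective D F)).mp h1)
  have hdvr : IsDiscreteValuationRing ↥U := { not_a_field' := hne }
  refine ⟨{ U.toSubring with mem_or_inv_mem' := ?_ }, ?_, ?_⟩
  · intro y
    rcases ValuationRing.isInteger_or_isInteger ↥U y with ⟨u, hu⟩ | ⟨u, hu⟩
    · left
      rw [← hu]
      exact u.2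
    · right
      rw [← hu]
      exact u.2
  · exact hdvr
  · intro y
    show y ∈ U ↔ _
    constructor
    · rintro ⟨c, d, hd, rfl⟩
      exact ⟨c, d, fun h => hd (Ideal.mem_span_singleton.mpr h), rfl⟩
    · rintro ⟨c, d, hd, rfl⟩
      exact ⟨c, d, fun h => hd (Ideal.mem_span_singleton.mp h), rfl⟩

end Fermat.Agent.S18.H72
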