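/-
S18 / wave 4 (helper72): Leaf K1 of the Kummer-Cech sub-skeleton (report #1282).
Part 2: local factorisation `f = unit * t ^ p` at a closed point of `V(ϖ)`.
-/
import Fermat.Agent.S18.H72.LocalUFD

set_option autoImplicit false

namespace Fermat.Agent.S18.H72

/-- In a UFD, a nonzero element all of whose prime multiplicities are divisible by `p` is a
unit times a `p`-th power. -/
theorem exists_unit_mul_pow {D : Type*} [CommRing D] [IsDomain D] [UniqueFactorizationMonoid D]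
    (p : ℕ) (hp : p ≠ 0) (a : D) (ha : a ≠ 0) (h : ∀ q : D, Prime q → p ∣ multiplicity q a) :
    ∃ (u : Dˣ) (g : D), a = u * g ^ p := by
  revert ha h
  refine WellFounded.induction
    (C := fun a => a ≠ 0 → (∀ q : D, Prime q → p ∣ multiplicity q a) →
      ∃ (u : Dˣ) (g : D), a = u * g ^ p) (wellFounded_dvdNotUnit (α := D)) a ?_
  intro a IH ha h
  by_cases hu : IsUnit a
  · exact ⟨hu.unit, 1, by simp⟩
  · obtain ⟨q, hq, hqa⟩ := WfDvdMonoid.exists_irreducible_factor hu ha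
    have hq' : Prime q := UniqueFactorizationMonoid.irreducible_iff_prime.mp hq
    have h1 : 0 < multiplicity q a := multiplicity_pos_of_dvd hqa
    have h2 : p ≤ multiplicity q a := Nat.le_of_dvd h1 (h q hq')
    have h3 : q ^ p ∣ a := pow_dvd_of_le_multiplicity h2
    obtain ⟨a', rfl⟩ := h3
    have ha' : a' ≠ 0 := right_ne_zero_of_mul ha
    have hqp : ¬ IsUnit (q ^ p) := fun hh => hq'.not_isUnit ((isUnit_pow_iff hp).mp hh)
    obtain ⟨u, g, hg⟩ := IH a' ⟨ha', q ^ p, hqp, mul_comm _ _⟩ ha' (fun q' hq'' => by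
      have h4 := h q' hq''
      rw [multiplicity_mul hq'' (FiniteMultiplicity.of_prime_left hq'' ha),
        (FiniteMultiplicity.of_prime_left hq'' hq'.ne_zero).multiplicity_pow hq''] at h4
      exact (Nat.dvd_add_right (dvd_mul_right p _)).mp h4)
    exact ⟨u, q * g, by rw [mul_pow, hg]; ring⟩

/-- `ϖ` stays prime in the local ring at `x ∋ ϖ`, and does not divide there the elements of `R`
it does not divide in `R`. -/
theorem prime_and_not_dvd_localization {R : Type*} [CommRing R] [IsDomain R] (ϖ : R)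
    (hϖ0 : ϖ ≠ 0) (hprime : (Ideal.span {ϖ} : Ideal R).IsPrime)
    (x : Ideal R) [x.IsPrime] (hϖx : ϖ ∈ x)
    (D : Type*) [CommRing D] [IsDomain D] [Algebra R D] [IsLocalization.AtPrime D x] :
    Prime (algebraMap R D ϖ) ∧ ∀ a : R, ¬ ϖ ∣ a → ¬ algebraMap R D ϖ ∣ algebraMap R D a := by
  have hM : x.primeCompl ≤ nonZeroDivisors R := Ideal.primeCompl_le_nonZeroDivisors x
  have hinj : Function.Injective (algebraMap R D) := IsLocalization.injective D hM
  have hIx : Ideal.span {ϖ} ≤ x := (Ideal.span_singleton_le_iff_mem _).mpr hϖx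
  have hdisj : Disjoint (x.primeCompl : Set R) ((Ideal.span {ϖ} : Ideal R) : Set R) := by
    rw [Set.disjoint_left]
    intro z hz hz'
    exact hz (hIx hz')
  constructor
  · have h1 := IsLocalization.isPrime_of_isPrime_disjoint x.primeCompl D _ hprime hdisj
    rw [Ideal.map_span, Set.image_singleton] at h1
    exact (Ideal.span_singleton_prime ((map_ne_zero_iff _ hinj).mpr hϖ0)).mp h1
  · intro a ha hdvd
    apply ha
    have h1 : algebraMap R D a ∈ Ideal.map (algebraMap R D) (Ideal.span {ϖ}) := by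
      rw [Ideal.map_span, Set.image_singleton]
      exact Ideal.mem_span_singleton.mpr hdvd
    have h2 : a ∈ Ideal.under R (Ideal.map (algebraMap R D) (Ideal.span {ϖ})) := h1
    rw [IsLocalization.under_map_of_isPrime_disjoint x.primeCompl D hprime hdisj] at h2
    exact Ideal.mem_span_singleton.mp h2

theorem dvd_of_add_mul_eq_mul (p x y z : ℕ) (h : x + p * y = p * z) : p ∣ x := by
  have h1 : p ∣ p * y + x := by
    rw [add_comm, h]
    exact dvd_mul_right p z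
  exact (Nat.dvd_add_right (dvd_mul_right p y)).mp h1

/-- **Local factorisation** (abstract form).  `R` a Noetherian domain with fraction field `F`,
`ϖ ≠ 0` with `R ⧸ ϖ R` Dedekind, `x ∋ ϖ` a maximal ideal, `f = a / b` with `ϖ ∤ a, b`, and
`p ∣ v(f)` for every discrete valuation ring `V ⊇ R[1/ϖ]` of `F`.  Then `f` is a unit of the
local ring `R_x` times a `p`-th power. -/
theorem local_factor_core {R F : Type*} [CommRing R] [IsDomain R] [IsNoetherianRing R] [Field F]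
    [Algebra R F] [IsFractionRing R F]
    (ϖ : R) (hϖ0 : ϖ ≠ 0) (p : ℕ) (hp : p ≠ 0)
    (hded : IsDedekindDomain (R ⧸ Ideal.span {ϖ}))
    (f : F) (a b : R) (ha : ¬ ϖ ∣ a) (hb : ¬ ϖ ∣ b)
    (hfab : f * algebraMap R F b = algebraMap R F a)
    (hdiv : ∀ V : ValuationSubring F, (algebraMap R F ϖ)⁻¹ ∈ V → (∀ r : R, algebraMap R F r ∈ V) →
      IsDiscreteValuationRing V → ∃ t : F, t ≠ 0 ∧ f / t ^ p ∈ V ∧ (f / t ^ p)⁻¹ ∈ V)
    (x : Ideal R) (hx : x.IsMaximal) (hϖx : ϖ ∈ x) :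
    ∃ t : F, t ≠ 0 ∧ ∃ a' : R, a' ∉ x ∧ ∃ b' : R, b' ∉ x ∧
      f * algebraMap R F b' = algebraMap R F a' * t ^ p := by
  classical
  have hxp : x.IsPrime := hx.isPrime
  have hM : x.primeCompl ≤ nonZeroDivisors R := Ideal.primeCompl_le_nonZeroDivisors x
  let D : Subalgebra R F := Localization.subalgebra.ofField F x.primeCompl hM
  have hloc : IsLocalization.AtPrime ↥D x :=
    Localization.subalgebra.isLocalization_ofField F _ hM
  have hnoeth : IsNoetherianRing ↥D :=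
    IsLocalization.isNoetherianRing x.primeCompl ↥D inferInstance
  have hufd : UniqueFactorizationMonoid ↥D := ufd_localization ϖ hϖ0 hded x hx hϖx ↥D
  have hprime : (Ideal.span {ϖ} : Ideal R).IsPrime :=
    (Ideal.Quotient.isDomain_iff_prime _).mp hded.toIsDomain
  obtain ⟨hϖD, hndvd⟩ := prime_and_not_dvd_localization ϖ hϖ0 hprime x hϖx ↥D
  have hinjD : Function.Injective (algebraMap ↥D F) := IsFractionRing.injective ↥D F
  have hRD : ∀ r : R, algebraMap ↥D F (algebraMap R ↥D r) = algebraMap R F r :=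
    fun r => (IsScalarTower.algebraMap_apply R ↥D F r).symm
  have ha0 : a ≠ 0 := by
    rintro rfl
    exact ha (dvd_zero _)
  have hb0 : b ≠ 0 := by
    rintro rfl
    exact hb (dvd_zero _)
  have haD0 : algebraMap R ↥D a ≠ 0 :=
    (map_ne_zero_iff _ (IsLocalization.injective ↥D hM)).mpr ha0
  have hbD0 : algebraMap R ↥D b ≠ 0 :=
    (map_ne_zero_iff _ (IsLocalization.injective ↥D hM)).mpr hb0
  obtain ⟨a₁, b₁, k, hrel, hka, hkb⟩ :=
    UniqueFactorizationMonoid.exists_reduced_factors' (algebraMap R ↥D a) (algebraMap R ↥D b) hbD0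
  have hk0 : k ≠ 0 := by
    rintro rfl
    rw [zero_mul] at hkb
    exact hbD0 hkb.symm
  have ha₁0 : a₁ ≠ 0 := by
    rintro rfl
    rw [mul_zero] at hka
    exact haD0 hka.symm
  have hb₁0 : b₁ ≠ 0 := by
    rintro rfl
    rw [mul_zero] at hkb
    exact hbD0 hkb.symm
  have hϖa₁ : ¬ algebraMap R ↥D ϖ ∣ a₁ := fun h => hndvd a ha (hka ▸ Dvd.dvd.mul_left h k)
  have hϖb₁ : ¬ algebraMap R ↥D ϖ ∣ b₁ := fun h => hndvd b hb (hkb ▸ Dvd.dvd.mul_left h k)
  have hA : algebraMap ↥D F a₁ ≠ 0 := (map_ne_zero_iff _ hinjD).mpr ha₁0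
  have hB : algebraMap ↥D F b₁ ≠ 0 := (map_ne_zero_iff _ hinjD).mpr hb₁0
  have hf₁ : f * algebraMap ↥D F b₁ = algebraMap ↥D F a₁ := by
    have h1 : f * (algebraMap ↥D F k * algebraMap ↥D F b₁)
        = algebraMap ↥D F k * algebraMap ↥D F a₁ := by
      rw [← map_mul, ← map_mul, hka, hkb, hRD, hRD, hfab]
    have hk' : algebraMap ↥D F k ≠ 0 := (map_ne_zero_iff _ hinjD).mpr hk0
    apply mul_left_cancel₀ hk'
    rw [← h1]
    ring
  have hf0 : f ≠ 0 := by
    rintro rfl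
    rw [zero_mul] at hf₁
    exact hA hf₁.symm
  have hfval : f = algebraMap ↥D F a₁ / algebraMap ↥D F b₁ := by
    rw [eq_div_iff hB]
    exact hf₁
  have key : ∀ q : ↥D, Prime q → p ∣ multiplicity q a₁ ∧ p ∣ multiplicity q b₁ := by
    intro q hq
    by_cases hqϖ : q ∣ algebraMap R ↥D ϖ
    · have hassoc : Associated q (algebraMap R ↥D ϖ) :=
        hq.irreducible.associated_of_dvd hϖD.irreducible hqϖ
      have h1 : ¬ q ∣ a₁ := fun h => hϖa₁ (hassoc.dvd_iff_dvd_left.mp h)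
      have h2 : ¬ q ∣ b₁ := fun h => hϖb₁ (hassoc.dvd_iff_dvd_left.mp h)
      rw [multiplicity_eq_zero.mpr h1, multiplicity_eq_zero.mpr h2]
      exact ⟨dvd_zero p, dvd_zero p⟩
    · obtain ⟨V, hVdvr, hVmem⟩ := exists_dvr_of_prime (F := F) q hq
      have hV1 : (algebraMap R F ϖ)⁻¹ ∈ V := by
        rw [hVmem]
        exact ⟨1, algebraMap R ↥D ϖ, hqϖ, by rw [map_one, one_mul, hRD]⟩
      have hV2 : ∀ r : R, algebraMap R F r ∈ V := by
        intro r
        rw [hVmem]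
        exact ⟨algebraMap R ↥D r, 1, hq.not_dvd_one, by rw [map_one, inv_one, mul_one, hRD]⟩
      obtain ⟨t, ht0, ht1, ht2⟩ := hdiv V hV1 hV2 hVdvr
      obtain ⟨c₁, d₁, hd₁, h1⟩ := (hVmem _).mp ht1
      obtain ⟨c₂, d₂, hd₂, h2⟩ := (hVmem _).mp ht2
      obtain ⟨g, h, hh, hgh⟩ := IsFractionRing.div_surjective ↥D t
      have hh0 : h ≠ 0 := nonZeroDivisors.ne_zero hh
      have hg0 : g ≠ 0 := by
        rintro rfl
        rw [map_zero, zero_div] at hgh
        exact ht0 hgh.symm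
      have hd₁0 : d₁ ≠ 0 := by
        rintro rfl
        exact hd₁ (dvd_zero _)
      have hd₂0 : d₂ ≠ 0 := by
        rintro rfl
        exact hd₂ (dvd_zero _)
      have hG : algebraMap ↥D F g ≠ 0 := (map_ne_zero_iff _ hinjD).mpr hg0
      have hH : algebraMap ↥D F h ≠ 0 := (map_ne_zero_iff _ hinjD).mpr hh0
      have hD₁ : algebraMap ↥D F d₁ ≠ 0 := (map_ne_zero_iff _ hinjD).mpr hd₁0
      have hD₂ : algebraMap ↥D F d₂ ≠ 0 := (map_ne_zero_iff _ hinjD).mpr hd₂0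
      have E1 : a₁ * h ^ p * d₁ = b₁ * g ^ p * c₁ := by
        apply hinjD
        simp only [map_mul, map_pow]
        rw [hfval, ← hgh, div_pow, div_div_div_eq, ← div_eq_mul_inv,
          div_eq_div_iff (mul_ne_zero hB (pow_ne_zero p hG)) hD₁] at h1
        linear_combination h1
      have E2 : c₁ * c₂ = d₁ * d₂ := by
        apply hinjD
        simp only [map_mul]
        have h3 : (algebraMap ↥D F c₁ * (algebraMap ↥D F d₁)⁻¹)
            * (algebraMap ↥D F c₂ * (algebraMap ↥D F d₂)⁻¹) = 1 := by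
          rw [← h1, ← h2]
          exact mul_inv_cancel₀ (div_ne_zero hf0 (pow_ne_zero p ht0))
        field_simp at h3
        linear_combination h3
      have hc₁ : ¬ q ∣ c₁ := by
        intro hqc
        have h3 : q ∣ d₁ * d₂ := E2 ▸ Dvd.dvd.mul_right hqc c₂
        rcases hq.dvd_or_dvd h3 with h4 | h4
        · exact hd₁ h4
        · exact hd₂ h4
      have hc₁0 : c₁ ≠ 0 := by
        rintro rfl
        exact hc₁ (dvd_zero _)
      have E3 : multiplicity q a₁ + p * multiplicity q h = multiplicity q b₁ + p * multiplicity q g := by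
        have h3 := congrArg (multiplicity q) E1
        rw [multiplicity_mul hq (FiniteMultiplicity.of_prime_left hq
            (mul_ne_zero (mul_ne_zero ha₁0 (pow_ne_zero p hh0)) hd₁0)),
          multiplicity_mul hq (FiniteMultiplicity.of_prime_left hq
            (mul_ne_zero ha₁0 (pow_ne_zero p hh0))),
          (FiniteMultiplicity.of_prime_left hq hh0).multiplicity_pow hq,
          multiplicity_mul hq (FiniteMultiplicity.of_prime_left hq
            (mul_ne_zero (mul_ne_zero hb₁0 (pow_ne_zero p hg0)) hc₁0)),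
          multiplicity_mul hq (FiniteMultiplicity.of_prime_left hq
            (mul_ne_zero hb₁0 (pow_ne_zero p hg0))),
          (FiniteMultiplicity.of_prime_left hq hg0).multiplicity_pow hq,
          multiplicity_eq_zero.mpr hd₁, multiplicity_eq_zero.mpr hc₁, add_zero, add_zero] at h3
        exact h3
      by_cases hqa : q ∣ a₁
      · have hqb : ¬ q ∣ b₁ := fun hqb => hq.not_isUnit (hrel hqa hqb)
        rw [multiplicity_eq_zero.mpr hqb, zero_add] at E3
        rw [multiplicity_eq_zero.mpr hqb]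
        exact ⟨dvd_of_add_mul_eq_mul p _ _ _ E3, dvd_zero p⟩
      · rw [multiplicity_eq_zero.mpr hqa, zero_add] at E3
        rw [multiplicity_eq_zero.mpr hqa]
        exact ⟨dvd_zero p, dvd_of_add_mul_eq_mul p _ _ _ E3.symm⟩
  obtain ⟨u, g₁, hg₁⟩ := exists_unit_mul_pow p hp a₁ ha₁0 (fun q hq => (key q hq).1)
  obtain ⟨v, h₁, hh₁⟩ := exists_unit_mul_pow p hp b₁ hb₁0 (fun q hq => (key q hq).2)
  have hg₁0 : g₁ ≠ 0 := by
    rintro rfl
    rw [zero_pow hp, mul_zero] at hg₁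
    exact ha₁0 hg₁
  have hh₁0 : h₁ ≠ 0 := by
    rintro rfl
    rw [zero_pow hp, mul_zero] at hh₁
    exact hb₁0 hh₁
  obtain ⟨⟨r, s⟩, hrs⟩ := IsLocalization.surj x.primeCompl (((u * v⁻¹ : (↥D)ˣ) : ↥D))
  have hrs' : ((u * v⁻¹ : (↥D)ˣ) : ↥D) * algebraMap R ↥D s = algebraMap R ↥D r := hrs
  have hr : r ∉ x := by
    have h1 : IsUnit (algebraMap R ↥D r) := by
      rw [← hrs']
      exact (u * v⁻¹).isUnit.mul (IsLocalization.map_units ↥D s)
    exact (IsLocalization.AtPrime.isUnit_to_map_iff ↥D x r).mp h1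
  have hG₁ : algebraMap ↥D F g₁ ≠ 0 := (map_ne_zero_iff _ hinjD).mpr hg₁0
  have hH₁ : algebraMap ↥D F h₁ ≠ 0 := (map_ne_zero_iff _ hinjD).mpr hh₁0
  have hV0 : algebraMap ↥D F (v : ↥D) ≠ 0 := (map_ne_zero_iff _ hinjD).mpr v.ne_zero
  refine ⟨algebraMap ↥D F g₁ / algebraMap ↥D F h₁, div_ne_zero hG₁ hH₁, r, hr, s, s.2, ?_⟩
  have e1 : algebraMap ↥D F a₁ = algebraMap ↥D F (u : ↥D) * algebraMap ↥D F g₁ ^ p := by
    rw [hg₁, map_mul, map_pow]
  have e2 : algebraMap ↥D F b₁ = algebraMap ↥D F (v : ↥D) * algebraMap ↥D F h₁ ^ p := by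
    rw [hh₁, map_mul, map_pow]
  have e3 : algebraMap ↥D F (((u * v⁻¹ : (↥D)ˣ) : ↥D)) * algebraMap R F s = algebraMap R F r := by
    rw [← hRD, ← hRD, ← map_mul, hrs']
  have e4 : algebraMap ↥D F (((u * v⁻¹ : (↥D)ˣ) : ↥D)) * algebraMap ↥D F (v : ↥D)
      = algebraMap ↥D F (u : ↥D) := by
    rw [← map_mul, ← Units.val_mul, inv_mul_cancel_right]
  rw [div_pow, mul_div_assoc', eq_div_iff (pow_ne_zero p hH₁)]
  apply mul_left_cancel₀ hV0
  linear_combination (algebraMap R F s) * hf₁ - (algebraMap R F s) * f * e2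
    + (algebraMap R F s) * e1 - (algebraMap R F s) * algebraMap ↥D F g₁ ^ p * e4
    + algebraMap ↥D F (v : ↥D) * algebraMap ↥D F g₁ ^ p * e3

/-- **K1 `local_factor`** in the shape of the Kummer-Cech sub-skeleton (report #1282); the
hypotheses `¬ ∃ d ∈ C, a = ϖ • d` are the unfolded `¬ Dv ϖ C a`. -/
theorem local_factor {A₀ : Type*} [CommRing A₀] [IsDomain A₀] {F : Type*} [Field F]
    [Algebra A₀ F] [IsDiscreteValuationRing A₀] [FaithfulSMul A₀ F]
    (ϖ : A₀) (hϖ : Irreducible ϖ) (p : ℕ) (hp : p ≠ 0)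
    (C : Subalgebra A₀ F) [IsIntegrallyClosed ↥C] [IsNoetherianRing ↥C]
    (hfrac : ∀ x : F, ∃ a ∈ C, ∃ b ∈ C, b ≠ 0 ∧ x = a / b)
    (hded : IsDedekindDomain (↥C ⧸ Ideal.span {algebraMap A₀ ↥C ϖ}))
    (f : F)
    (hf : ∃ a ∈ C, ∃ b ∈ C, ¬ (∃ d ∈ C, a = ϖ • d) ∧ ¬ (∃ d ∈ C, b = ϖ • d) ∧ f * b = a)
    (hdiv : ∀ V : ValuationSubring F, (∀ a : A₀, a ≠ 0 → (algebraMap A₀ F a)⁻¹ ∈ V) →
      IsDiscreteValuationRing V → ∃ t : F, t ≠ 0 ∧ f / t ^ p ∈ V ∧ (f / t ^ p)⁻¹ ∈ V)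
    (x : Ideal ↥C) (hx : x.IsMaximal) (hϖx : algebraMap A₀ ↥C ϖ ∈ x) :
    ∃ t : F, t ≠ 0 ∧ ∃ a : ↥C, a ∉ x ∧ ∃ b : ↥C, b ∉ x ∧ f * (b : F) = (a : F) * t ^ p := by
  classical
  have hinj : Function.Injective (algebraMap A₀ F) := FaithfulSMul.algebraMap_injective A₀ F
  have hfaith : FaithfulSMul ↥C F :=
    (faithfulSMul_iff_algebraMap_injective ↥C F).mpr Subtype.coe_injective
  have hfr : IsFractionRing ↥C F := IsFractionRing.of_field ↥C F (fun z => by
    obtain ⟨a, ha, b, hb, -, rfl⟩ := hfrac z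
    exact ⟨⟨a, ha⟩, ⟨b, hb⟩, rfl⟩)
  have hcoe : ∀ a₀ : A₀, ((algebraMap A₀ ↥C a₀ : ↥C) : F) = algebraMap A₀ F a₀ := fun _ => rfl
  have hϖ0 : algebraMap A₀ ↥C ϖ ≠ 0 := by
    intro h
    have h1 : algebraMap A₀ F ϖ = 0 := by
      rw [← hcoe, h]
      rfl
    exact hϖ.ne_zero ((map_eq_zero_iff _ hinj).mp h1)
  obtain ⟨a, ha, b, hb, hna, hnb, hfab⟩ := hf
  have hndv : ∀ (c : F) (hc : c ∈ C), ¬ (∃ d ∈ C, c = ϖ • d) →
      ¬ algebraMap A₀ ↥C ϖ ∣ (⟨c, hc⟩ : ↥C) := by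
    rintro c hc hn ⟨d, hd⟩
    apply hn
    refine ⟨d, d.2, ?_⟩
    have h1 := congrArg Subtype.val hd
    rw [Algebra.smul_def]
    exact h1
  have hdiv' : ∀ V : ValuationSubring F, (algebraMap ↥C F (algebraMap A₀ ↥C ϖ))⁻¹ ∈ V →
      (∀ r : ↥C, algebraMap ↥C F r ∈ V) → IsDiscreteValuationRing V →
      ∃ t : F, t ≠ 0 ∧ f / t ^ p ∈ V ∧ (f / t ^ p)⁻¹ ∈ V := by
    intro V hV1 hV2 hVdvr
    apply hdiv V ?_ hVdvr
    intro a₀ ha₀
    obtain ⟨n, u, hu⟩ := IsDiscreteValuationRing.associated_pow_irreducible ha₀ hϖ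
    have h3 : algebraMap A₀ F a₀ ≠ 0 := (map_ne_zero_iff _ hinj).mpr ha₀
    have h4 : algebraMap A₀ F ϖ ≠ 0 := (map_ne_zero_iff _ hinj).mpr hϖ.ne_zero
    have h2 : algebraMap A₀ F a₀ * algebraMap A₀ F (u : A₀) = (algebraMap A₀ F ϖ) ^ n := by
      rw [← map_mul, hu, map_pow]
    have h1 : (algebraMap A₀ F a₀)⁻¹
        = algebraMap A₀ F (u : A₀) * ((algebraMap A₀ F ϖ)⁻¹) ^ n := by
      rw [inv_pow, ← h2]
      field_simp
    rw [h1]
    exact mul_mem (hV2 (algebraMap A₀ ↥C (u : A₀))) (pow_mem hV1 n)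
  obtain ⟨t, ht, a', ha', b', hb', h⟩ := local_factor_core (R := ↥C) (F := F)
    (algebraMap A₀ ↥C ϖ) hϖ0 p hp hded f ⟨a, ha⟩ ⟨b, hb⟩ (hndv a ha hna) (hndv b hb hnb) hfab
    hdiv' x hx hϖx
  exact ⟨t, ht, a', ha', b', hb', h⟩

end Fermat.Agent.S18.H72
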